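import Fermat.Agent.AV.Const.Disjoint
import Fermat.Agent.FF.Along
import Fermat.Agent.EichlerShimura.RedDivisor
import Fermat.Agent.CurveTorsion.PlaneModel
import Mathlib.FieldTheory.PrimitiveElement
import Mathlib.RingTheory.Discriminant

/-!
# The constant field extension of a function field

`F₀/K` a function field over an algebraically closed `K`, `L` algebraically closed over `K`, and
`E` generated by `L` and `F₀` with some element of `F₀` transcendental over `L`.
-/

set_option autoImplicit false

noncomputable section

open Polynomial IntermediateField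

namespace Fermat.Agent.AV.Const

open Fermat.Agent.FF Fermat.Agent.RedTorsion

/-- `E` is the constant extension of `F₀/K` to `L`. -/
class IsConstExt (K F₀ L E : Type*) [Field K] [Field F₀] [Field L] [Field E] [Algebra K F₀]
    [Algebra K L] [Algebra L E] [Algebra F₀ E] : Prop where
  adjoin_eq : IntermediateField.adjoin L (Set.range (algebraMap F₀ E)) = ⊤
  exists_transcendental : ∃ x : F₀, Transcendental L (algebraMap F₀ E x)

variable {K F₀ L E : Type*} [Field K] [Field F₀] [Field L] [Field E] [Algebra K F₀]
  [Algebra K L] [Algebra L E] [Algebra F₀ E] [Algebra K E] [IsScalarTower K L E]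
  [IsScalarTower K F₀ E] [IsAlgClosed K] [IsAlgClosed L] [IsFunctionField K F₀]
  [IsConstExt K F₀ L E]

omit [IsAlgClosed L] [IsAlgClosed K] in
theorem transcendental_map {x : F₀} (hx : Transcendental K x) :
    Transcendental L (algebraMap F₀ E x) := by
  intro halg
  obtain ⟨x', hx'⟩ := IsConstExt.exists_transcendental (K := K) (F₀ := F₀) (L := L) (E := E)
  have := finiteDimensional_adjoin (K := K) hx
  let N : IntermediateField L E := algebraicClosure L E
  have hmem : ∀ z : K⟮x⟯, algebraMap F₀ E (z : F₀) ∈ N := fun z => by
    have h1 : K⟮x⟯ ≤ (N.restrictScalars K).comap (IsScalarTower.toAlgHom K F₀ E) := by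
      rw [adjoin_simple_le_iff]
      exact mem_algebraicClosure_iff.mpr halg
    exact h1 z.2
  let j : K⟮x⟯ →+* N := ((algebraMap F₀ E).comp (algebraMap K⟮x⟯ F₀)).codRestrict N.toSubfield hmem
  obtain ⟨g, hg, hgx⟩ := (Algebra.IsIntegral.isIntegral (R := K⟮x⟯) x')
  have hN : IsIntegral N (algebraMap F₀ E x') := by
    refine ⟨g.map j, hg.map _, ?_⟩
    rw [eval₂_map, show (algebraMap N E).comp j = (algebraMap F₀ E).comp (algebraMap K⟮x⟯ F₀) from rfl,
      ← hom_eval₂, hgx, map_zero]
  exact hx' (isIntegral_trans _ hN).isAlgebraic

variable {x : F₀} (hx : Transcendental K x)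

omit [IsAlgClosed L] [IsAlgClosed K] in
/-- The two lines are compatible. -/
theorem algebraMap_ratLine (f : RatFunc K) :
    algebraMap F₀ E (ratLine hx f) =
      ratLine (transcendental_map (L := L) (E := E) hx) (ratExtend K L f) := by
  conv_lhs => rw [← RatFunc.num_div_denom f]
  conv_rhs => rw [← RatFunc.num_div_denom f]
  rw [map_div₀, map_div₀, map_div₀, map_div₀, ratLine_algebraMap, ratLine_algebraMap,
    ratExtend_algebraMap, ratExtend_algebraMap, ratLine_algebraMap, ratLine_algebraMap,
    aeval_map_algebraMap, aeval_map_algebraMap, aeval_algebraMap_apply, aeval_algebraMap_apply]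

/-- The data of a line through `x` with a basis compatible with the extension. -/
structure LineBasis where
  n : ℕ
  b₀ : letI := ratAlgebra hx; Module.Basis (Fin n) (RatFunc K) F₀
  b : letI := ratAlgebra (transcendental_map (L := L) (E := E) hx)
    Module.Basis (Fin n) (RatFunc L) E
  compat : letI := ratAlgebra hx; letI := ratAlgebra (transcendental_map (L := L) (E := E) hx)
    ∀ i, b i = algebraMap F₀ E (b₀ i)

/-- A separable line gives compatible bases. -/
theorem exists_lineBasis [Algebra.IsSeparable K⟮x⟯ F₀] :
    Nonempty (LineBasis (L := L) (E := E) hx) := by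
  have hE := transcendental_map (L := L) (E := E) hx
  let _ := ratAlgebra hx
  let _ := ratAlgebra hE
  have := finiteDimensional_adjoin (K := K) hx
  have := finite_ratAlgebra hx
  have := isSeparable_ratAlgebra hx
  obtain ⟨y, hy⟩ := Field.exists_primitive_element (RatFunc K) F₀
  let pb := (IntermediateField.adjoin.powerBasis (K := RatFunc K)
    (Algebra.IsIntegral.isIntegral y)).map ((IntermediateField.equivOfEq hy).trans
      IntermediateField.topEquiv)
  have hgen : pb.gen = y := by
    simp [pb, IntermediateField.adjoin.powerBasis_gen]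
  set f := minpoly (RatFunc K) y
  have hint : IsIntegral (RatFunc K) y := Algebra.IsIntegral.isIntegral y
  set f' := f.map (ratExtend K L) with hf'
  have hirr : Irreducible f' :=
    irreducible_map_ratExtend (minpoly.monic hint) (minpoly.irreducible hint)
  have hev : aeval (algebraMap F₀ E y) f' = 0 := by
    rw [hf', aeval_def, eval₂_map]
    have : (algebraMap (RatFunc L) E).comp (ratExtend K L) =
        (algebraMap F₀ E).comp (algebraMap (RatFunc K) F₀) :=
      RingHom.ext fun g => (algebraMap_ratLine hx g).symm
    rw [this, ← hom_eval₂, ← aeval_def, minpoly.aeval, map_zero]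
  have hmin : f' = minpoly (RatFunc L) (algebraMap F₀ E y) :=
    minpoly.eq_of_irreducible_of_monic hirr hev ((minpoly.monic hint).map _)
  have hint' : IsIntegral (RatFunc L) (algebraMap F₀ E y) :=
    ⟨f', (minpoly.monic hint).map _, hev⟩
  let G : IntermediateField (RatFunc L) E := (RatFunc L)⟮algebraMap F₀ E y⟯
  have hF : ∀ z : F₀, algebraMap F₀ E z ∈ G := fun z => by
    rw [← pb.basis.sum_repr z, map_sum]
    refine sum_mem fun i _ => ?_
    rw [Algebra.smul_def, map_mul, PowerBasis.coe_basis, hgen, map_pow,
      show algebraMap (RatFunc K) F₀ (pb.basis.repr z i) = ratLine hx _ from rfl,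
      algebraMap_ratLine (L := L) (E := E) hx]
    exact mul_mem (G.algebraMap_mem _) (pow_mem (mem_adjoin_simple_self _ _) _)
  have hL : ∀ c : L, algebraMap L E c ∈ G := fun c => by
    rw [← ratLine_C hE c]
    exact G.algebraMap_mem _
  have hG : G = ⊤ := by
    let G' : IntermediateField L E :=
      { G.toSubfield with algebraMap_mem' := hL }
    have h1 : (⊤ : IntermediateField L E) ≤ G' := by
      rw [← IsConstExt.adjoin_eq (K := K) (F₀ := F₀) (L := L) (E := E), adjoin_le_iff]
      rintro _ ⟨z, rfl⟩
      exact hF z
    exact eq_top_iff.mpr fun z _ => h1 IntermediateField.mem_top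
  let pbE := (IntermediateField.adjoin.powerBasis hint').map
    ((IntermediateField.equivOfEq hG).trans IntermediateField.topEquiv)
  have hgenE : pbE.gen = algebraMap F₀ E y := by
    simp [pbE, IntermediateField.adjoin.powerBasis_gen]
  have hdim : pbE.dim = pb.dim := by
    simp only [pb, pbE, PowerBasis.map_dim, IntermediateField.adjoin.powerBasis_dim, ← hmin, hf',
      natDegree_map]
    rfl
  exact ⟨⟨pb.dim, pb.basis, pbE.basis.reindex (finCongr hdim), fun i => by
    rw [Module.Basis.reindex_apply, PowerBasis.coe_basis, PowerBasis.coe_basis, hgen, hgenE, map_pow]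
    simp⟩⟩

/-- A function field has a separable line. -/
theorem exists_separable_line (K F₀ : Type*) [Field K] [Field F₀] [Algebra K F₀] [IsAlgClosed K]
    [IsFunctionField K F₀] :
    ∃ x : F₀, Transcendental K x ∧ Algebra.IsSeparable K⟮x⟯ F₀ := by
  obtain ⟨v⟩ := exists_place (K := K) (F := F₀)
  obtain ⟨z, -, hz⟩ := exists_uniformizer v
  exact ⟨z, transcendental_of_ord_pos v (by omega), CurveTorsion.isSeparable_of_ord_eq_one hz⟩

theorem isFunctionField_constExt (K F₀ L E : Type*) [Field K] [Field F₀] [Field L] [Field E]
    [Algebra K F₀] [Algebra K L] [Algebra L E] [Algebra F₀ E] [Algebra K E] [IsScalarTower K L E]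
    [IsScalarTower K F₀ E] [IsAlgClosed K] [IsAlgClosed L] [IsFunctionField K F₀]
    [IsConstExt K F₀ L E] : IsFunctionField L E := by
  obtain ⟨x, hx, hs⟩ := exists_separable_line K F₀
  obtain ⟨B⟩ := exists_lineBasis (L := L) (E := E) hx
  have hE := transcendental_map (L := L) (E := E) hx
  let _ := ratAlgebra hE
  have : IsScalarTower L (RatFunc L) E := IsScalarTower.of_algebraMap_eq fun c =>
    (ratLine_C hE c).symm
  have : Module.Finite (RatFunc L) E := Module.Finite.of_basis B.b
  exact isFunctionField_extension L (RatFunc L) E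

end Fermat.Agent.AV.Const
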