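import Mathlib.RingTheory.Valuation.LocalSubring
import Mathlib.FieldTheory.IsAlgClosed.Basic

/-!
# Valuation rings with constant residue field

Every valuation ring containing an algebraically closed field `K` refines to one with residue
field `K`.
-/

set_option autoImplicit false

noncomputable section

open Polynomial IsLocalRing

namespace Fermat.Agent.AV.Const

/-- The residue field of `A` is `K`. -/
class IsConstPlace (K : Type*) {L : Type*} [Field K] [Field L] [Algebra K L]
    (A : ValuationSubring L) : Prop where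
  algebraMap_mem : ∀ k : K, algebraMap K L k ∈ A
  exists_sub_mem : ∀ a ∈ A, ∃ k : K, a - algebraMap K L k ∈ A.nonunits

variable {K L : Type*} [Field K] [Field L] [Algebra K L]

section Value

variable (K) (A : ValuationSubring L) [IsConstPlace K A]

/-- The constants in `A`. -/
def constA : K →+* A := (algebraMap K L).codRestrict A.toSubring IsConstPlace.algebraMap_mem

theorem bijective_constA : Function.Bijective ((residue A).comp (constA K A)) := by
  refine ⟨RingHom.injective _, fun z => ?_⟩
  obtain ⟨a, rfl⟩ := residue_surjective z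
  obtain ⟨k, hk⟩ := IsConstPlace.exists_sub_mem (K := K) (A := A) (a : L) a.2
  refine ⟨k, ?_⟩
  rw [RingHom.comp_apply, eq_comm, ← sub_eq_zero, ← map_sub, residue_eq_zero_iff,
    ← ValuationSubring.coe_mem_nonunits_iff]
  exact hk

/-- `K ≅` the residue field. -/
def kEquiv : K ≃+* ResidueField A := RingEquiv.ofBijective _ (bijective_constA K A)

/-- The value in `K`. -/
def valueA : A →+* K := (kEquiv K A).symm.toRingHom.comp (residue A)

theorem kEquiv_valueA (a : A) : kEquiv K A (valueA K A a) = residue A a :=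
  (kEquiv K A).apply_symm_apply _

theorem valueA_constA (k : K) : valueA K A (constA K A k) = k :=
  (kEquiv K A).symm_apply_apply k

theorem valueA_eq_zero_iff (a : A) : valueA K A a = 0 ↔ (a : L) ∈ A.nonunits := by
  rw [valueA, RingHom.comp_apply, RingEquiv.toRingHom_eq_coe, RingEquiv.coe_toRingHom,
    map_eq_zero_iff _ (RingEquiv.injective _), residue_eq_zero_iff,
    ← ValuationSubring.coe_mem_nonunits_iff]

theorem sub_valueA_mem (a : A) : (a : L) - algebraMap K L (valueA K A a) ∈ A.nonunits := by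
  have h : valueA K A (a - constA K A (valueA K A a)) = 0 := by
    rw [map_sub, valueA_constA, sub_self]
  exact (valueA_eq_zero_iff K A _).mp h

end Value

/-- The valuation ring composed of `V` and a valuation ring of its residue field. -/
def composite (V : ValuationSubring L) (W : ValuationSubring (ResidueField V)) :
    ValuationSubring L where
  toSubring := (W.toSubring.comap (residue V)).map V.subtype
  mem_or_inv_mem' x := by
    have key : ∀ y : V, (y : L) ∈ (W.toSubring.comap (residue V)).map V.subtype ∨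
        (y : L)⁻¹ ∈ (W.toSubring.comap (residue V)).map V.subtype := fun y => by
      by_cases hy : residue V y ∈ W
      · exact Or.inl ⟨y, hy, rfl⟩
      have hu : IsUnit y := by
        rw [← residue_ne_zero_iff_isUnit]
        exact fun h => hy (h ▸ zero_mem _)
      obtain ⟨u, rfl⟩ := hu
      refine Or.inr ⟨(↑u⁻¹ : V), ?_, ?_⟩
      · show residue V (↑u⁻¹ : V) ∈ W
        rw [show residue V (↑u⁻¹ : V) = (residue V (u : V))⁻¹ from
          eq_inv_of_mul_eq_one_right (by rw [← map_mul, u.mul_inv, map_one])]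
        exact (W.mem_or_inv_mem _).resolve_left hy
      · exact eq_inv_of_mul_eq_one_right (congrArg (fun z : V => (z : L)) u.mul_inv)
    rcases V.mem_or_inv_mem x with h | h
    · exact key ⟨x, h⟩
    · simpa using (key ⟨_, h⟩).symm

theorem mem_composite {V : ValuationSubring L} {W : ValuationSubring (ResidueField V)} {x : L} :
    x ∈ composite V W ↔ ∃ h : x ∈ V, residue V ⟨x, h⟩ ∈ W := by
  constructor
  · rintro ⟨y, hy, rfl⟩
    exact ⟨y.2, hy⟩
  · rintro ⟨h, hx⟩
    exact ⟨⟨x, h⟩, hx, rfl⟩

theorem composite_le (V : ValuationSubring L) (W : ValuationSubring (ResidueField V)) :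
    composite V W ≤ V := fun _ hx => (mem_composite.mp hx).1

variable [IsAlgClosed K]

/-- A minimal valuation ring containing `K` has residue field `K`. -/
theorem isConstPlace_of_minimal {V : ValuationSubring L} (hV : ∀ k : K, algebraMap K L k ∈ V)
    (hmin : ∀ W ≤ V, (∀ k : K, algebraMap K L k ∈ W) → W = V) : IsConstPlace K V := by
  refine ⟨hV, fun a ha => ?_⟩
  by_contra! hne
  let i : K →+* ResidueField V := (residue V).comp ((algebraMap K L).codRestrict V.toSubring hV)
  let _ := i.toAlgebra
  set z := residue V ⟨a, ha⟩ with hz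
  have hzK : ∀ k : K, algebraMap K (ResidueField V) k ≠ z := fun k h => by
    refine hne k ?_
    have h1 : residue V (⟨a, ha⟩ - ⟨algebraMap K L k, hV k⟩ : V) = 0 := by
      rw [map_sub, sub_eq_zero]
      exact h.symm
    rw [residue_eq_zero_iff, ← ValuationSubring.coe_mem_nonunits_iff] at h1
    exact h1
  have htr : Transcendental K z := fun halg => by
    obtain ⟨k, hk⟩ := minpoly.mem_range_of_degree_eq_one K z
      (IsAlgClosed.degree_eq_one_of_irreducible K (minpoly.irreducible halg.isIntegral))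
    exact hzK k hk
  have hinj : Function.Injective (aeval (R := K) z) := transcendental_iff_injective.mp htr
  let R : Subalgebra K (ResidueField V) := (aeval (R := K) z).range
  let e : K[X] ≃ₐ[K] R := AlgEquiv.ofInjective (aeval (R := K) z) hinj
  let I : Ideal R := Ideal.span {e X}
  have hI : I ≠ ⊤ := by
    intro h
    have h1 : IsUnit (e.symm (e X)) := (Ideal.span_singleton_eq_top.mp h).map e.symm
    rw [AlgEquiv.symm_apply_apply] at h1
    exact not_isUnit_X h1
  obtain ⟨W, hRW, hW⟩ := Ideal.image_subset_nonunits_valuationSubring (A := R.toSubring) I hI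
  have hz0 : z ≠ 0 := fun h => hzK 0 (by rw [h, map_zero])
  have hzW : z⁻¹ ∉ W := by
    have h1 : z ∈ W.nonunits := hW ⟨e X, Ideal.mem_span_singleton_self _, aeval_X (R := K) z⟩
    rw [ValuationSubring.mem_nonunits_iff_or] at h1
    exact h1.resolve_left hz0
  have heq := hmin _ (composite_le V W) fun k => mem_composite.mpr
    ⟨hV k, hRW (R.algebraMap_mem k)⟩
  have hu : IsUnit (⟨a, ha⟩ : V) := (residue_ne_zero_iff_isUnit _).mp hz0
  obtain ⟨u, hu⟩ := hu
  have h2 : ((↑u⁻¹ : V) : L) ∈ composite V W := by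
    rw [heq]
    exact (↑u⁻¹ : V).2
  obtain ⟨_, h3⟩ := mem_composite.mp h2
  refine hzW ?_
  rw [show z⁻¹ = residue V (↑u⁻¹ : V) from (eq_inv_of_mul_eq_one_right
    (by rw [hz, ← hu, ← map_mul, u.mul_inv, map_one])).symm]
  exact h3

/-- Refinement to residue field `K`. -/
theorem exists_isConstPlace_le (V : ValuationSubring L) (hV : ∀ k : K, algebraMap K L k ∈ V) :
    ∃ A ≤ V, IsConstPlace K A := by
  let S : Set (ValuationSubring L)ᵒᵈ :=
    {W | OrderDual.ofDual W ≤ V ∧ ∀ k : K, algebraMap K L k ∈ OrderDual.ofDual W}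
  have hbd : ∀ c ⊆ S, IsChain (· ≤ ·) c → ∀ y ∈ c, ∃ ub ∈ S, ∀ z ∈ c, z ≤ ub := by
    intro c hc hchain y hy
    let T : ValuationSubring L :=
      { toSubring := ⨅ W : c, (OrderDual.ofDual (W : (ValuationSubring L)ᵒᵈ)).toSubring
        mem_or_inv_mem' := fun x => by
          show x ∈ ⨅ W : c, (OrderDual.ofDual (W : (ValuationSubring L)ᵒᵈ)).toSubring ∨
            x⁻¹ ∈ ⨅ W : c, (OrderDual.ofDual (W : (ValuationSubring L)ᵒᵈ)).toSubring
          simp only [Subring.mem_iInf]
          by_contra! h
          obtain ⟨⟨W₁, h₁⟩, ⟨W₂, h₂⟩⟩ := h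
          rcases hchain.total W₁.2 W₂.2 with hle | hle
          · rcases (OrderDual.ofDual (W₂ : (ValuationSubring L)ᵒᵈ)).mem_or_inv_mem x with hx | hx
            · exact h₁ (hle hx)
            · exact h₂ hx
          · rcases (OrderDual.ofDual (W₁ : (ValuationSubring L)ᵒᵈ)).mem_or_inv_mem x with hx | hx
            · exact h₁ hx
            · exact h₂ (hle hx) }
    have hT : ∀ x, x ∈ T ↔ ∀ W ∈ c, x ∈ OrderDual.ofDual W := fun x => by
      show x ∈ T.toSubring ↔ _
      simp only [T, Subring.mem_iInf, Subtype.forall]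
      rfl
    refine ⟨OrderDual.toDual T, ⟨fun x hx => (hc hy).1 ((hT x).mp hx y hy),
      fun k => (hT _).mpr fun W hW => (hc hW).2 k⟩, fun W hW x hx => (hT x).mp hx W hW⟩
  obtain ⟨A, hVA, hA⟩ := zorn_le_nonempty₀ S hbd (OrderDual.toDual V) ⟨le_refl _, hV⟩
  refine ⟨OrderDual.ofDual A, hA.prop.1, isConstPlace_of_minimal hA.prop.2 fun W hW hWk => ?_⟩
  exact le_antisymm hW (hA.le_of_ge (y := OrderDual.toDual W) ⟨hW.trans hA.prop.1, hWk⟩ hW)

/-- A place of `L` prolonging a homomorphism to `K` of a subring. -/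
theorem exists_isConstPlace_of_hom (R : Subring L) (φ : R →+* K)
    (hK : ∀ k : K, algebraMap K L k ∈ R) (hφ : ∀ k : K, φ ⟨_, hK k⟩ = k) :
    ∃ (A : ValuationSubring L) (_ : IsConstPlace K A) (h : ∀ r : R, (r : L) ∈ A),
      ∀ r : R, valueA K A ⟨(r : L), h r⟩ = φ r := by
  have hne : RingHom.ker φ ≠ ⊤ := RingHom.ker_ne_top φ
  obtain ⟨V, hRV, hV⟩ := Ideal.image_subset_nonunits_valuationSubring (RingHom.ker φ) hne
  obtain ⟨A, hAV, hA⟩ := exists_isConstPlace_le V fun k => hRV (hK k)
  have hker : ∀ r : R, φ r = 0 → (r : L) ∈ A.nonunits := fun r hr =>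
    ValuationSubring.nonunits_le_nonunits.mpr hAV (hV ⟨r, hr, rfl⟩)
  have hmem : ∀ r : R, (r : L) ∈ A := fun r => by
    have h1 := hker (r - ⟨_, hK (φ r)⟩) (by rw [map_sub, hφ, sub_self])
    have h2 : ((r - ⟨_, hK (φ r)⟩ : R) : L) ∈ A := ValuationSubring.nonunits_subset h1
    simpa using add_mem h2 (IsConstPlace.algebraMap_mem (A := A) (φ r))
  refine ⟨A, hA, hmem, fun r => ?_⟩
  have h1 := hker (r - ⟨_, hK (φ r)⟩) (by rw [map_sub, hφ, sub_self])
  have h2 : valueA K A (⟨(r : L), hmem r⟩ - constA K A (φ r)) = 0 :=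
    (valueA_eq_zero_iff K A _).mpr h1
  rwa [map_sub, valueA_constA, sub_eq_zero] at h2

end Fermat.Agent.AV.Const
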