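import Fermat.Agent.AV.Const.Gauss
import Fermat.Agent.FF.Kaehler
import Fermat.Agent.RedTorsion.SepCriterion

/-!
# Residue discs of a constant curve

For a place `A` of `L` with residue field `K`, every valuation ring of `E` above `A` with residue
field `K` has a centre among the places of `F₀`; the points of `E/L` with a given centre `Q` form
a residue disc.
-/

set_option autoImplicit false
set_option linter.unusedSectionVars false

noncomputable section

open scoped Classical
open Polynomial IsLocalRing IntermediateField AlgebraicCurve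

namespace Fermat.Agent.AV.Const

open Fermat.Agent.FF Fermat.Agent.RedTorsion Fermat.Agent.EichlerShimura

section Centre

variable {K F : Type*} [Field K] [Field F] [Algebra K F]

theorem ne_top_of_isConstPlace [IsFunctionField K F] (V : ValuationSubring F) [IsConstPlace K V] :
    V ≠ ⊤ := by
  intro h
  obtain ⟨x, hx, -⟩ := IsFunctionField.exists_finite (K := K) (F := F)
  obtain ⟨k, hk⟩ := IsConstPlace.exists_sub_mem (K := K) (A := V) x (h ▸ ValuationSubring.mem_top _)
  rw [ValuationSubring.mem_nonunits_iff_or, h] at hk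
  refine hk.elim (fun h0 => hx ?_) fun h0 => h0 (ValuationSubring.mem_top _)
  rw [sub_eq_zero.mp h0]
  exact isAlgebraic_algebraMap k

/-- A valuation ring with residue field `K` as a place. -/
def centreOf [IsFunctionField K F] (V : ValuationSubring F) [IsConstPlace K V] : Place K F :=
  placeOfValuationSubring V (IsConstPlace.algebraMap_mem (K := K) (A := V))
    (ne_top_of_isConstPlace (K := K) V)

@[simp] theorem centreOf_toValuationSubring [IsFunctionField K F] (V : ValuationSubring F)
    [IsConstPlace K V] : (centreOf (K := K) V).toValuationSubring = V := rfl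

theorem ord_pos_iff (P : Place K F) {f : F} (hf : f ≠ 0) :
    0 < P.ord f ↔ f ∈ P.toValuationSubring.nonunits := by
  rw [← mem_ordGe_one_iff, mem_ordGe, or_iff_right hf]
  exact ⟨fun h => by omega, fun h => by omega⟩

theorem isConstPlace_place [IsAlgClosed K] [IsFunctionField K F] (P : Place K F) :
    IsConstPlace K P.toValuationSubring :=
  ⟨P.algebraMap_mem', fun _ ha => ⟨_, (mem_ordGe_one_iff P).mp (sub_valAtP_mem P ha)⟩⟩

end Centre

section Trace

variable {K F₀ E : Type*} [Field K] [Field F₀] [Field E] [Algebra K F₀] [Algebra F₀ E]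
  [Algebra K E] [IsScalarTower K F₀ E]

theorem mem_nonunits_comap {W : ValuationSubring E} {f : F₀} :
    f ∈ (W.comap (algebraMap F₀ E)).nonunits ↔ algebraMap F₀ E f ∈ W.nonunits := by
  rw [ValuationSubring.mem_nonunits_iff_or, ValuationSubring.mem_nonunits_iff_or,
    ValuationSubring.mem_comap, map_inv₀, map_eq_zero]

/-- The trace of a valuation ring on a subfield. -/
theorem isConstPlace_comap (W : ValuationSubring E) [IsConstPlace K W] :
    IsConstPlace K (W.comap (algebraMap F₀ E)) := by
  refine ⟨fun k => ?_, fun f hf => ?_⟩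
  · rw [ValuationSubring.mem_comap, ← IsScalarTower.algebraMap_apply]
    exact IsConstPlace.algebraMap_mem k
  · obtain ⟨k, hk⟩ := IsConstPlace.exists_sub_mem (K := K) (A := W) (algebraMap F₀ E f) hf
    refine ⟨k, mem_nonunits_comap.mpr ?_⟩
    rwa [map_sub, ← IsScalarTower.algebraMap_apply]

end Trace

section Point

variable {L E : Type*} [Field L] [IsAlgClosed L] [Field E] [Algebra L E] [IsFunctionField L E]
  (A : ValuationSubring L) (P : Place L E)

theorem valAtP_const {c : L} :
    valAtP P ⟨algebraMap L E c, P.algebraMap_mem' c⟩ = c :=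
  valAtP_eq_of_sub_mem P _ (by simp)

theorem valAtP_inv {f : E} (hf : f ∈ P.toValuationSubring)
    (h : valAtP P ⟨f, hf⟩ ≠ 0) :
    ∃ h' : f⁻¹ ∈ P.toValuationSubring, valAtP P ⟨f⁻¹, h'⟩ = (valAtP P ⟨f, hf⟩)⁻¹ := by
  have hf0 : f ≠ 0 := fun h0 => h (by
    rw [show (⟨f, hf⟩ : P.toValuationSubring) = 0 from Subtype.ext h0, map_zero])
  have hu : f⁻¹ ∈ P.toValuationSubring := by
    by_contra hn
    have h1 : f ∈ P.toValuationSubring.nonunits := (ValuationSubring.mem_nonunits_iff_or _).mpr
      (Or.inr hn)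
    exact h (valAtP_eq_of_sub_mem P hf (by simpa using (mem_ordGe_one_iff P).mpr h1))
  refine ⟨hu, eq_inv_of_mul_eq_one_right ?_⟩
  rw [← map_mul, ← map_one (valAtP P)]
  exact congrArg _ (Subtype.ext (mul_inv_cancel₀ hf0))

/-- The composite of a point and `A`. -/
def specVal : ValuationSubring E where
  toSubring := (A.toSubring.comap (valAtP P)).map P.toValuationSubring.subtype
  mem_or_inv_mem' x := by
    have key : ∀ y : P.toValuationSubring,
        (y : E) ∈ (A.toSubring.comap (valAtP P)).map P.toValuationSubring.subtype ∨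
        (y : E)⁻¹ ∈ (A.toSubring.comap (valAtP P)).map P.toValuationSubring.subtype := fun y => by
      by_cases hy : valAtP P y ∈ A
      · exact Or.inl ⟨y, hy, rfl⟩
      obtain ⟨h', he⟩ := valAtP_inv P y.2 fun h => hy (h ▸ zero_mem _)
      exact Or.inr ⟨⟨_, h'⟩, (he ▸ (A.mem_or_inv_mem _).resolve_left hy : valAtP P ⟨_, h'⟩ ∈ A), rfl⟩
    rcases P.toValuationSubring.mem_or_inv_mem x with h | h
    · exact key ⟨x, h⟩
    · simpa using (key ⟨_, h⟩).symm

theorem mem_specVal {f : E} :
    f ∈ specVal A P ↔ ∃ h : f ∈ P.toValuationSubring, valAtP P ⟨f, h⟩ ∈ A := by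
  constructor
  · rintro ⟨y, hy, rfl⟩
    exact ⟨y.2, hy⟩
  · rintro ⟨h, hf⟩
    exact ⟨⟨f, h⟩, hf, rfl⟩

theorem specVal_le : specVal A P ≤ P.toValuationSubring := fun _ hf => (mem_specVal A P).mp hf |>.1

theorem mem_nonunits_specVal {f : E} (hf : f ∈ specVal A P) :
    f ∈ (specVal A P).nonunits ↔
      valAtP P ⟨f, specVal_le A P hf⟩ ∈ A.nonunits := by
  obtain ⟨h, hv⟩ := (mem_specVal A P).mp hf
  rw [ValuationSubring.mem_nonunits_iff_or, ValuationSubring.mem_nonunits_iff_or]
  constructor
  · intro h1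
    by_contra h2
    push Not at h2
    obtain ⟨h', he⟩ := valAtP_inv P h h2.1
    rcases h1 with rfl | h1
    · exact h2.1 (map_zero _)
    · exact h1 ((mem_specVal A P).mpr ⟨h', he ▸ h2.2⟩)
  · intro h1
    by_cases hf0 : f = 0
    · exact Or.inl hf0
    refine Or.inr fun h2 => ?_
    obtain ⟨h', hv'⟩ := (mem_specVal A P).mp h2
    have hmul : valAtP P ⟨f, h⟩ * valAtP P ⟨f⁻¹, h'⟩ = 1 := by
      rw [← map_mul, ← map_one (valAtP P)]
      exact congrArg _ (Subtype.ext (mul_inv_cancel₀ hf0))
    rcases h1 with h1 | h1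
    · rw [h1, zero_mul] at hmul
      exact zero_ne_one hmul
    · exact h1 (eq_inv_of_mul_eq_one_right hmul ▸ hv')

instance isConstPlace_specVal {K : Type*} [Field K] [Algebra K L] [Algebra K E]
    [IsScalarTower K L E] [IsConstPlace K A] : IsConstPlace K (specVal A P) := by
  have hK : ∀ k : K, algebraMap K E k ∈ specVal A P := fun k => by
    rw [IsScalarTower.algebraMap_apply K L E]
    exact (mem_specVal A P).mpr ⟨P.algebraMap_mem' _, by
      rw [valAtP_const]; exact IsConstPlace.algebraMap_mem k⟩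
  refine ⟨hK, fun f hf => ?_⟩
  obtain ⟨h, hv⟩ := (mem_specVal A P).mp hf
  obtain ⟨k, hk⟩ := IsConstPlace.exists_sub_mem (K := K) (A := A) _ hv
  refine ⟨k, (mem_nonunits_specVal A P (sub_mem hf (hK k))).mpr ?_⟩
  convert hk using 1
  have h2 : algebraMap K E k ∈ P.toValuationSubring := specVal_le A P (hK k)
  rw [show (⟨_, specVal_le A P (sub_mem hf (hK k))⟩ : P.toValuationSubring) = ⟨f, h⟩ - ⟨_, h2⟩
    from rfl, map_sub]
  congr 1
  rw [show (⟨_, h2⟩ : P.toValuationSubring) =
    ⟨algebraMap L E (algebraMap K L k), P.algebraMap_mem' _⟩ from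
      Subtype.ext (IsScalarTower.algebraMap_apply K L E k), valAtP_const]

theorem comap_specVal : (specVal A P).comap (algebraMap L E) = A :=
  SetLike.ext fun c => by
    rw [ValuationSubring.mem_comap, mem_specVal]
    exact ⟨fun ⟨h, hv⟩ => by rwa [valAtP_const] at hv,
      fun h => ⟨P.algebraMap_mem' c, by rwa [valAtP_const]⟩⟩

end Point

variable (K F₀ : Type*) {L E : Type*} [Field K] [Field F₀] [Field L] [Field E] [Algebra K F₀]
  [Algebra K L] [Algebra L E] [Algebra F₀ E] [Algebra K E] [IsScalarTower K L E]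
  [IsScalarTower K F₀ E] [IsAlgClosed K] [IsAlgClosed L] [IsFunctionField K F₀]
  [IsConstExt K F₀ L E] [IsFunctionField L E] (A : ValuationSubring L) [IsConstPlace K A]

/-- The centre of a valuation ring with residue field `K`. -/
def centre (W : ValuationSubring E) [IsConstPlace K W] : Place K F₀ :=
  haveI := isConstPlace_comap (K := K) (F₀ := F₀) W
  centreOf (W.comap (algebraMap F₀ E))

theorem mem_centre {W : ValuationSubring E} [IsConstPlace K W] {f : F₀} :
    f ∈ (centre K F₀ W).toValuationSubring ↔ algebraMap F₀ E f ∈ W := by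
  rw [centre, centreOf_toValuationSubring, ValuationSubring.mem_comap]

theorem centre_nonunits {W : ValuationSubring E} [IsConstPlace K W] {f : F₀} (hf : f ≠ 0) :
    0 < (centre K F₀ W).ord f ↔ algebraMap F₀ E f ∈ W.nonunits :=
  (ord_pos_iff _ hf).trans (by
    rw [centre, centreOf_toValuationSubring]
    exact mem_nonunits_comap)

/-- The centre of a point. -/
def spec (P : Place L E) : Place K F₀ := centre K F₀ (specVal A P)

variable {K F₀}

/-- `x` vanishes exactly at `Q`. -/
def IsCentred (x : F₀) (Q : Place K F₀) : Prop := ∀ Q' : Place K F₀, 0 < Q'.ord x ↔ Q' = Q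

theorem IsCentred.mem_nonunits {x : F₀} {Q : Place K F₀} (hc : IsCentred x Q)
    {W : ValuationSubring E} [IsConstPlace K W] :
    centre K F₀ W = Q ↔ algebraMap F₀ E x ∈ W.nonunits := by
  have hx0 : x ≠ 0 := fun h => by
    have := (hc Q).mpr rfl
    simp [h] at this
  rw [← hc, centre_nonunits K F₀ hx0]

/-- A function with a single zero, at `Q`, giving a separable line. -/
theorem exists_centred (Q : Place K F₀) :
    ∃ x : F₀, Transcendental K x ∧ Algebra.IsSeparable K⟮x⟯ F₀ ∧ IsCentred x Q := by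
  obtain ⟨c, hc⟩ := exists_h1_eq_zero (K := K) (F := F₀)
  have hz : ∀ n : ℕ, c + 1 ≤ (n : ℤ) → 0 < n → ∃ z : F₀, z ≠ 0 ∧ Q.ord z = -(n : ℤ) ∧
      ∀ v, v ≠ Q → 0 ≤ v.ord z := by
    intro n hn hn0
    have h1 := riemann_roch_isAlgClosed (Finsupp.single Q (n : ℤ))
    have h2 := riemann_roch_isAlgClosed (Finsupp.single Q ((n : ℤ) - 1))
    rw [hc _ (by rw [Divisor.degree_single, deg_eq_one]; omega), Divisor.degree_single,
      deg_eq_one] at h1 h2
    have hle : riemannRochSpace (Finsupp.single Q ((n : ℤ) - 1)) ≤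
        riemannRochSpace (Finsupp.single Q (n : ℤ)) :=
      riemannRochSpace_mono (Finsupp.single_le_single.mpr (by omega))
    have hne : riemannRochSpace (Finsupp.single Q ((n : ℤ) - 1)) ≠
        riemannRochSpace (Finsupp.single Q (n : ℤ)) := fun h => by
      simp only [ell, (LinearEquiv.ofEq _ _ h).finrank_eq] at h2
      simp only [ell] at h1
      push_cast at h1 h2
      omega
    obtain ⟨z, hz, hz0⟩ := SetLike.exists_of_lt (lt_of_le_of_ne hle hne)
    rw [mem_riemannRochSpace'] at hz hz0
    have hz0' : z ≠ 0 := fun h => hz0 fun u => h ▸ zero_mem _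
    have hu : ∀ u : Place K F₀, u ≠ Q → z ∈ ordGe u 0 := fun u hu => by
      simpa [Finsupp.single_eq_of_ne hu] using hz u
    refine ⟨z, hz0', ?_, fun u hu' => ord_nonneg u ((mem_ordGe_zero u).mp (hu u hu'))⟩
    have h3 := le_ord_of_mem_ordGe Q hz0' (hz Q)
    simp only [Finsupp.single_eq_same] at h3
    refine le_antisymm ?_ h3
    by_contra h4
    refine hz0 fun u => ?_
    rcases eq_or_ne u Q with rfl | h
    · exact mem_ordGe_of_le u (by simp only [Finsupp.single_eq_same]; omega)
    · simpa [Finsupp.single_eq_of_ne h] using hu u h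
  set N : ℕ := c.toNat + 1 with hN
  have hcen : ∀ (n : ℕ) (z : F₀), 0 < n → z ≠ 0 → Q.ord z = -(n : ℤ) →
      (∀ v, v ≠ Q → 0 ≤ v.ord z) → Transcendental K z⁻¹ ∧ IsCentred z⁻¹ Q := by
    intro n z hn hz0 hQ hv
    refine ⟨transcendental_of_ord_pos Q (by rw [Place.ord_inv, hQ]; omega), fun v => ?_⟩
    rw [Place.ord_inv]
    refine ⟨fun h => ?_, fun h => by subst h; rw [hQ]; omega⟩
    by_contra h'
    have := hv v h'
    omega
  obtain ⟨p, hp⟩ := ExpChar.exists K
  rcases hp with _ | ⟨hpp⟩
  · obtain ⟨z, hz0, hQ, hv⟩ := hz N (by omega) (by omega)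
    obtain ⟨ht, hcz⟩ := hcen N z (by omega) hz0 hQ hv
    exact ⟨_, ht, isSeparable_adjoin ht, hcz⟩
  · obtain ⟨n, hn, hn0, hpn⟩ : ∃ n : ℕ, c + 1 ≤ (n : ℤ) ∧ 0 < n ∧ ¬ p ∣ n := by
      by_cases h : p ∣ N
      · refine ⟨N + 1, by omega, by omega, fun h' => ?_⟩
        have := Nat.dvd_sub h' h
        simp only [Nat.add_sub_cancel_left, Nat.dvd_one] at this
        exact hpp.ne_one this
      · exact ⟨N, by omega, by omega, h⟩
    obtain ⟨z, hz0, hQ, hv⟩ := hz n hn hn0
    obtain ⟨ht, hcz⟩ := hcen n z hn0 hz0 hQ hv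
    have : Fact p.Prime := ⟨hpp⟩
    have : CharP K p := ‹_›
    refine ⟨_, ht, isSeparable_of_not_pow p ht fun y hy => hpn ?_, hcz⟩
    have h1 := congrArg Q.ord hy
    rw [ord_pow, Place.ord_inv, hQ, neg_neg] at h1
    exact Int.natCast_dvd_natCast.mp ⟨_, h1.symm⟩

variable {A}

theorem overDisc_zero_iff {x : F₀} (hx : Transcendental K x) {Q : Place K F₀} (hc : IsCentred x Q)
    (B : LineBasis (L := L) (E := E) hx) (P : Place L E) :
    letI := ratAlgebra (transcendental_map (L := L) (E := E) hx)
    haveI := Module.Finite.of_basis B.b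
    haveI := lineE_tower (E := E) (L := L) hx
    OverDisc (0 : Kappa A) P ↔ spec K F₀ A P = Q := by
  have hE := transcendental_map (L := L) (E := E) hx
  let _ := ratAlgebra hE
  have := Module.Finite.of_basis B.b
  have := lineE_tower (E := E) (L := L) hx
  have hxE : algebraMap (RatFunc L) E RatFunc.X = algebraMap F₀ E x := ratLine_X hE
  rw [show spec K F₀ A P = Q ↔ algebraMap F₀ E x ∈ (specVal A P).nonunits from hc.mem_nonunits]
  constructor
  · rintro ⟨c, hc0, hP⟩
    have hm : algebraMap F₀ E x ∈ P.toValuationSubring := hxE ▸ algebraMap_mem_place hP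
      (by rw [← RatFunc.algebraMap_X]; exact algebraMap_mem_Loc _ _)
    have hval : valAtP P ⟨_, hm⟩ = (c : L) := by
      have hX : RatFunc.X ∈ Loc (c : L) := by
        rw [← RatFunc.algebraMap_X]; exact algebraMap_mem_Loc _ _
      rw [show (⟨_, hm⟩ : P.toValuationSubring) = ⟨_, algebraMap_mem_place hP hX⟩ from
        Subtype.ext hxE.symm, valAtP_algebraMap hP hX,
        evalLoc_eq (p := X) (q := 1) _ (by simp) (by simp [RatFunc.algebraMap_X]), eval_X, eval_one,
        _root_.div_one]
    have hB : algebraMap F₀ E x ∈ specVal A P := (mem_specVal A P).mpr ⟨hm, hval ▸ c.2⟩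
    rw [mem_nonunits_specVal A P hB, hval, ValuationSubring.coe_mem_nonunits_iff,
      ← IsLocalRing.residue_eq_zero_iff]
    exact hc0
  · intro h
    have hB : algebraMap F₀ E x ∈ specVal A P := ValuationSubring.nonunits_subset h
    obtain ⟨hm, hv⟩ := (mem_specVal A P).mp hB
    rw [mem_nonunits_specVal A P hB] at h
    refine ⟨⟨_, hv⟩, by rwa [IsLocalRing.residue_eq_zero_iff, ← ValuationSubring.coe_mem_nonunits_iff], ?_⟩
    let pP : L[X] →+* P.toValuationSubring := eval₂RingHom
      ((algebraMap L E).codRestrict P.toValuationSubring.toSubring P.algebraMap_mem') ⟨_, hm⟩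
    have hp : ∀ p : L[X], (pP p : E) = algebraMap (RatFunc L) E (algebraMap L[X] (RatFunc L) p) :=
      fun p => RingHom.congr_fun
        (f := P.toValuationSubring.subtype.comp pP)
        (g := (algebraMap (RatFunc L) E).comp (algebraMap L[X] (RatFunc L)))
        (Polynomial.ringHom_ext (fun a => by
          simp only [pP, RingHom.comp_apply, coe_eval₂RingHom, eval₂_C, RatFunc.algebraMap_C,
            ← RatFunc.algebraMap_eq_C, ← IsScalarTower.algebraMap_apply]
          rfl) (by
          simp only [pP, RingHom.comp_apply, coe_eval₂RingHom, eval₂_X, RatFunc.algebraMap_X]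
          exact hxE.symm)) p
    have hpv : ∀ p : L[X], valAtP P (pP p) = p.eval (valAtP P ⟨_, hm⟩) := fun p =>
      RingHom.congr_fun (f := (valAtP P).comp pP) (g := evalRingHom _)
        (Polynomial.ringHom_ext (fun a => by
          simp only [pP, RingHom.comp_apply, coe_eval₂RingHom, eval₂_C, coe_evalRingHom, eval_C]
          exact valAtP_const P) (by simp [pP])) p
    refine restrict_eq_placeAtPt_iff P fun f hf => ?_
    obtain ⟨p, q, hq, hpq⟩ := EichlerShimura.mem_Loc.mp hf
    obtain ⟨hi, -⟩ := valAtP_inv P (pP q).2 (by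
      rw [show (⟨_, (pP q).2⟩ : P.toValuationSubring) = pP q from rfl, hpv]; exact hq)
    have hq0 : (pP q : E) ≠ 0 := fun h0 => hq (by
      have := hpv q
      rw [show pP q = 0 from Subtype.ext h0, map_zero] at this
      exact this.symm)
    rw [show algebraMap (RatFunc L) E f = (pP p : E) * (pP q : E)⁻¹ by
      rw [eq_mul_inv_iff_mul_eq₀ hq0, hp, hp, ← map_mul, hpq]]
    exact mul_mem (pP p).2 hi

end Fermat.Agent.AV.Const
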