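import Fermat.Agent.RedTorsion.RatLine
import Mathlib.RingTheory.Polynomial.GaussLemma

/-!
# Constant extensions do not change degrees over the line

`K` algebraically closed, `L` an extension.  `K(X)` is algebraically closed in `L(X)`, so an
irreducible polynomial over `K(X)` stays irreducible over `L(X)`.
-/

set_option autoImplicit false

noncomputable section

open Polynomial

namespace Fermat.Agent.AV.Const

variable (K L : Type*) [Field K] [Field L] [Algebra K L]

/-- `K(X) → L(X)`. -/
def ratExtend : RatFunc K →+* RatFunc L :=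
  RatFunc.liftRingHom ((algebraMap L[X] (RatFunc L)).comp (mapRingHom (algebraMap K L)))
    (nonZeroDivisors_le_comap_nonZeroDivisors_of_injective _
      ((RatFunc.algebraMap_injective L).comp (map_injective _ (algebraMap K L).injective)))

variable {K L}

theorem ratExtend_algebraMap (p : K[X]) :
    ratExtend K L (algebraMap K[X] (RatFunc K) p) =
      algebraMap L[X] (RatFunc L) (p.map (algebraMap K L)) := by
  rw [ratExtend, RatFunc.liftRingHom_algebraMap]
  rfl

theorem ratExtend_C (c : K) : ratExtend K L (RatFunc.C c) = RatFunc.C (algebraMap K L c) := by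
  rw [← RatFunc.algebraMap_C, ratExtend_algebraMap, map_C, RatFunc.algebraMap_C]

theorem ratExtend_X : ratExtend K L RatFunc.X = RatFunc.X := by
  rw [← RatFunc.algebraMap_X, ratExtend_algebraMap, map_X, RatFunc.algebraMap_X]

theorem mem_range_of_roots [IsAlgClosed L] {p : L[X]} (hp : p.Monic)
    (h : ∀ r ∈ p.roots, r ∈ (algebraMap K L).range) :
    p ∈ (mapRingHom (algebraMap K L)).range := by
  rw [(IsAlgClosed.splits p).eq_prod_roots_of_monic hp]
  refine Subring.multiset_prod_mem _ _ fun q hq => ?_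
  obtain ⟨r, hr, rfl⟩ := Multiset.mem_map.mp hq
  obtain ⟨k, rfl⟩ := h r hr
  exact ⟨X - C k, by simp⟩

theorem mem_range_of_isRoot_map [IsAlgClosed K] {a : K[X]} (ha : a ≠ 0) {r : L}
    (hr : (a.map (algebraMap K L)).IsRoot r) : r ∈ (algebraMap K L).range := by
  have hint : IsIntegral K r := by
    refine IsAlgebraic.isIntegral ⟨a, ha, ?_⟩
    rwa [IsRoot, eval_map, ← aeval_def] at hr
  exact minpoly.mem_range_of_degree_eq_one K r
    (IsAlgClosed.degree_eq_one_of_irreducible K (minpoly.irreducible hint))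

/-- `K(X)` is algebraically closed in `L(X)`. -/
theorem mem_range_ratExtend_of_isRoot [IsAlgClosed K] [IsAlgClosed L] {r : RatFunc L}
    {f : (RatFunc K)[X]} (hf : f ≠ 0) (hr : f.eval₂ (ratExtend K L) r = 0) :
    r ∈ (ratExtend K L).range := by
  rcases eq_or_ne r 0 with rfl | hr0
  · exact zero_mem _
  -- clear the denominators of the coefficients
  obtain ⟨b, hb, hfb⟩ := IsLocalization.integerNormalization_spec (nonZeroDivisors K[X]) f
  set P := IsLocalization.integerNormalization (nonZeroDivisors K[X]) f with hP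
  have hb0 : b ≠ 0 := nonZeroDivisors.ne_zero hb
  have hP0 : P ≠ 0 := by
    intro h
    rw [h, Polynomial.map_zero, eq_comm, smul_eq_zero] at hfb
    exact hfb.elim hb0 hf
  -- strip a power of the variable
  obtain ⟨Q, hQ, hQ0⟩ : ∃ Q : (K[X])[X], P = X ^ P.natTrailingDegree * Q ∧ Q.coeff 0 ≠ 0 := by
    obtain ⟨Q, hQ⟩ : X ^ P.natTrailingDegree ∣ P := X_pow_dvd_iff.mpr fun d hd =>
      coeff_eq_zero_of_lt_natTrailingDegree hd
    refine ⟨Q, hQ, ?_⟩
    have := coeff_X_pow_mul Q P.natTrailingDegree 0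
    rw [← hQ, zero_add] at this
    rw [← this]
    exact trailingCoeff_nonzero_iff_nonzero.mpr hP0
  let φ : K[X] →+* RatFunc L := (ratExtend K L).comp (algebraMap K[X] (RatFunc K))
  have hQr : Q.eval₂ φ r = 0 := by
    have h1 : P.eval₂ φ r = 0 := by
      exact IsLocalization.integerNormalization_eval₂_eq_zero (nonZeroDivisors K[X])
        (ratExtend K L) f hr
    rw [hQ, eval₂_mul, eval₂_X_pow, mul_eq_zero] at h1
    exact h1.resolve_left (pow_ne_zero _ hr0)
  -- the homogenised relation
  set n := Q.natDegree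
  set p := r.num
  set q := r.denom
  have hinj := RatFunc.algebraMap_injective L
  have hq0 : algebraMap L[X] (RatFunc L) q ≠ 0 :=
    (map_ne_zero_iff _ hinj).mpr r.denom_ne_zero
  have hrel : ∑ i ∈ Finset.range (n + 1),
      (Q.coeff i).map (algebraMap K L) * p ^ i * q ^ (n - i) = 0 := by
    refine hinj ?_
    rw [map_sum, map_zero, ← mul_zero (algebraMap L[X] (RatFunc L) q ^ n), ← hQr,
      eval₂_eq_sum_range, Finset.mul_sum]
    refine Finset.sum_congr rfl fun i hi => ?_
    rw [Finset.mem_range] at hi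
    have hr' : r = algebraMap L[X] (RatFunc L) p / algebraMap L[X] (RatFunc L) q :=
      (RatFunc.num_div_denom r).symm
    rw [show φ (Q.coeff i) = ratExtend K L (algebraMap _ _ (Q.coeff i)) from rfl,
      ratExtend_algebraMap, map_mul, map_mul, map_pow, map_pow, hr', div_pow,
      show algebraMap L[X] (RatFunc L) q ^ n =
        algebraMap L[X] (RatFunc L) q ^ (n - i) * algebraMap L[X] (RatFunc L) q ^ i by
          rw [← pow_add, Nat.sub_add_cancel (Nat.le_of_lt_succ hi)]]
    field_simp
  have hqdvd : q ∣ (Q.coeff n).map (algebraMap K L) := by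
    refine ((IsCoprime.pow_right (n := n) (RatFunc.isCoprime_num_denom r).symm))
      |>.dvd_of_dvd_mul_right ?_
    rw [Finset.sum_range_succ, Nat.sub_self, pow_zero, mul_one] at hrel
    rw [eq_neg_of_add_eq_zero_right hrel, dvd_neg]
    refine Finset.dvd_sum fun i hi => dvd_mul_of_dvd_right (dvd_pow_self _ ?_) _
    rw [Finset.mem_range] at hi
    omega
  have hpdvd : p ∣ (Q.coeff 0).map (algebraMap K L) := by
    refine ((IsCoprime.pow_right (n := n) (RatFunc.isCoprime_num_denom r)))
      |>.dvd_of_dvd_mul_right ?_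
    rw [Finset.sum_range_succ', pow_zero, mul_one, Nat.sub_zero] at hrel
    rw [eq_neg_of_add_eq_zero_right hrel, dvd_neg]
    exact Finset.dvd_sum fun i _ =>
      dvd_mul_of_dvd_left (dvd_mul_of_dvd_right (dvd_pow_self _ (Nat.succ_ne_zero i)) _) _
  have hn0 : Q.coeff n ≠ 0 := by
    have : Q ≠ 0 := fun h => hQ0 (by simp [h])
    exact leadingCoeff_ne_zero.mpr this
  have hroots : ∀ {a : K[X]} {s : L[X]}, a ≠ 0 → s ∣ a.map (algebraMap K L) →
      ∀ x ∈ s.roots, x ∈ (algebraMap K L).range := fun ha hs x hx =>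
    mem_range_of_isRoot_map ha (dvd_iff_isRoot.mp
      ((dvd_iff_isRoot.mpr (mem_roots'.mp hx).2).trans hs))
  obtain ⟨q₀, hq₀⟩ := mem_range_of_roots r.monic_denom (hroots hn0 hqdvd)
  have hp0 : p ≠ 0 := RatFunc.num_ne_zero hr0
  obtain ⟨p₀, hp₀⟩ := mem_range_of_roots (monic_mul_leadingCoeff_inv hp0)
    (hroots hQ0 (((isUnit_C.mpr (isUnit_iff_ne_zero.mpr
      (inv_ne_zero (leadingCoeff_ne_zero.mpr hp0)))).mul_right_dvd).mpr hpdvd))
  set lam := p.leadingCoeff with hlam
  set s : RatFunc K := algebraMap K[X] (RatFunc K) p₀ / algebraMap K[X] (RatFunc K) q₀ with hs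
  have hrs : r = RatFunc.C lam * ratExtend K L s := by
    rw [coe_mapRingHom] at hp₀ hq₀
    rw [hs, map_div₀, ratExtend_algebraMap, ratExtend_algebraMap, hp₀, hq₀, map_mul,
      RatFunc.algebraMap_C, mul_div_assoc, mul_div_left_comm, ← mul_assoc, ← map_mul,
      mul_inv_cancel₀ (leadingCoeff_ne_zero.mpr hp0), map_one, one_mul]
    exact (RatFunc.num_div_denom r).symm
  suffices lam ∈ (algebraMap K L).range by
    obtain ⟨k, hk⟩ := this
    exact ⟨RatFunc.C k * s, by rw [hrs, map_mul, ratExtend_C, hk]⟩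
  -- `lam` is algebraic over `K`: a root of a specialisation of the relation
  have hs0 : s ≠ 0 := fun h => hr0 (by rw [hrs, h, map_zero, mul_zero])
  set Q' := Q.map (algebraMap K[X] (RatFunc K)) |>.comp (C s * X) with hQ'
  have hQ'0 : Q' ≠ 0 := by
    intro h
    have h0 := congrArg (fun g => Polynomial.coeff g 0) h
    simp only [hQ', coeff_zero_eq_eval_zero, eval_comp, eval_mul, eval_C, eval_X, mul_zero,
      eval_zero] at h0
    rw [← coeff_zero_eq_eval_zero, coeff_map, map_eq_zero_iff _ (RatFunc.algebraMap_injective K)]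
      at h0
    exact hQ0 h0
  obtain ⟨b', hb', hfb'⟩ := IsLocalization.integerNormalization_spec (nonZeroDivisors K[X]) Q'
  set P' := IsLocalization.integerNormalization (nonZeroDivisors K[X]) Q'
  have hP'0 : P' ≠ 0 := by
    intro h
    rw [h, Polynomial.map_zero, eq_comm, smul_eq_zero] at hfb'
    exact hfb'.elim (nonZeroDivisors.ne_zero hb') hQ'0
  have hev : P'.eval₂ (mapRingHom (algebraMap K L)) (C lam) = 0 := by
    refine hinj ?_
    rw [hom_eval₂, map_zero, RatFunc.algebraMap_C]
    have : (algebraMap L[X] (RatFunc L)).comp (mapRingHom (algebraMap K L)) =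
        (ratExtend K L).comp (algebraMap K[X] (RatFunc K)) :=
      RingHom.ext fun a => (ratExtend_algebraMap a).symm
    rw [this, ← eval₂_map, hfb', ← IsScalarTower.algebraMap_smul (RatFunc K) b' Q', eval₂_smul, hQ', eval₂_comp,
      eval₂_mul, eval₂_C, eval₂_X, mul_comm (ratExtend K L s), ← hrs, eval₂_map]
    exact mul_eq_zero_of_right _ hQr
  -- some coefficient of `X` in the relation is nonzero
  obtain ⟨i, hi⟩ : ∃ i, P'.coeff i ≠ 0 := by
    by_contra! h
    exact hP'0 (Polynomial.ext fun i => by simp [h i])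
  obtain ⟨k, hk⟩ : ∃ k, (P'.coeff i).coeff k ≠ 0 := by
    by_contra! h
    exact hi (Polynomial.ext fun j => by simp [h j])
  let a : K[X] := ∑ j ∈ Finset.range (P'.natDegree + 1), monomial j ((P'.coeff j).coeff k)
  have hai : a.coeff i = (P'.coeff i).coeff k := by
    simp only [a, finsetSum_coeff, coeff_monomial, Finset.sum_ite_eq']
    rw [if_pos (Finset.mem_range.mpr (Nat.lt_succ_of_le (le_natDegree_of_ne_zero hi)))]
  have ha : a ≠ 0 := fun h => hk (by rw [← hai, h, coeff_zero])
  refine mem_range_of_isRoot_map ha ?_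
  have h1 := congrArg (fun g : L[X] => g.coeff k) hev
  simp only [eval₂_eq_sum_range, finsetSum_coeff, coeff_zero, ← C_pow, coeff_mul_C,
    coe_mapRingHom, coeff_map] at h1
  rw [IsRoot, eval_map, eval₂_finsetSum]
  simpa only [eval₂_monomial] using h1

/-- An irreducible polynomial over `K(X)` stays irreducible over `L(X)`. -/
theorem irreducible_map_ratExtend [IsAlgClosed K] [IsAlgClosed L] {f : (RatFunc K)[X]}
    (hf : f.Monic) (hirr : Irreducible f) : Irreducible (f.map (ratExtend K L)) := by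
  let _ := (ratExtend K L).toAlgebra
  have hne : f.map (ratExtend K L) ≠ 1 := fun h => hirr.ne_one
    (map_injective _ (ratExtend K L).injective (by rw [h, Polynomial.map_one]))
  have hlift : ∀ g : (RatFunc L)[X], g.Monic → g ∣ f.map (ratExtend K L) →
      ∃ g₀ : (RatFunc K)[X], g₀.Monic ∧ g₀.map (ratExtend K L) = g := by
    intro g hg hd
    have h1 := integralClosure.mem_lifts_of_monic_of_dvd_map (R := RatFunc K) (RatFunc L) hf hg hd
    have h2 : g ∈ lifts (ratExtend K L) := by
      rw [lifts_iff_coeff_lifts]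
      intro i
      obtain ⟨y, hy⟩ := (lifts_iff_coeff_lifts _).mp h1 i
      obtain ⟨m, hm, hmy⟩ : IsIntegral (RatFunc K) (g.coeff i) := hy ▸ y.2
      exact mem_range_ratExtend_of_isRoot hm.ne_zero hmy
    obtain ⟨g₀, hg₀, -, hmon⟩ := lifts_and_natDegree_eq_and_monic h2 hg
    exact ⟨g₀, hmon, hg₀⟩
  refine (Monic.irreducible_iff_natDegree (hf.map _)).mpr ⟨hne, fun g h hg hh e => ?_⟩
  obtain ⟨g₀, hg₀, rfl⟩ := hlift g hg ⟨h, e.symm⟩
  obtain ⟨h₀, hh₀, rfl⟩ := hlift h hh ⟨_, by rw [← e, mul_comm]⟩
  have e' : g₀ * h₀ = f :=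
    map_injective _ (ratExtend K L).injective (by rw [Polynomial.map_mul, e])
  rcases ((Monic.irreducible_iff_natDegree hf).mp hirr).2 g₀ h₀ hg₀ hh₀ e' with h1 | h1
  · exact Or.inl (by rw [natDegree_map, h1])
  · exact Or.inr (by rw [natDegree_map, h1])

end Fermat.Agent.AV.Const
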