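import Fermat.Agent.AV.Const.Regular

/-!
# The constant extension and its points from homomorphisms
-/

set_option autoImplicit false

noncomputable section

open scoped Classical
open Polynomial IsLocalRing IntermediateField AlgebraicCurve

namespace Fermat.Agent.AV.Const

open Fermat.Agent.FF Fermat.Agent.RedTorsion Fermat.Agent.EichlerShimura


variable {K F₀ L E : Type*} [Field K] [Field F₀] [Field L] [Field E] [Algebra K F₀]
  [Algebra K L] [Algebra L E] [Algebra F₀ E] [Algebra K E] [IsScalarTower K L E]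
  [IsScalarTower K F₀ E] [IsAlgClosed K] [IsAlgClosed L] [IsFunctionField K F₀]
  [IsConstExt K F₀ L E] [IsFunctionField L E]

/-- The point of `E` defined by a homomorphism `F₀ → L`. -/
theorem exists_evalPlace (φ : F₀ →ₐ[K] L) : ∃ P : Place L E,
    ∀ f : F₀, ∃ h : algebraMap F₀ E f ∈ P.toValuationSubring, valAtP P ⟨_, h⟩ = φ f := by
  obtain ⟨x, hx, hsep⟩ := exists_separable_line K F₀
  obtain ⟨B⟩ := exists_lineBasis (L := L) (E := E) hx
  have hE := transcendental_map (L := L) (E := E) hx
  let _ := ratAlgebra hx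
  let _ := ratAlgebra hE
  have := lineE_tower (E := E) (L := L) hx
  set t := φ x with ht
  have ht' : Transcendental K t := fun h => hx
    ((isAlgebraic_algHom_iff φ φ.toRingHom.injective).mp h)
  have hden : ∀ g : RatFunc K, (g.denom.map (algebraMap K L)).eval t ≠ 0 := fun g => by
    rw [eval_map, ← aeval_def]
    exact fun h => g.denom_ne_zero (transcendental_iff.mp ht' _ h)
  have hgmem : ∀ g : RatFunc K, ∃ h : ratExtend K L g ∈ Loc t,
      evalLoc t ⟨_, h⟩ = φ (ratLine hx g) := fun g => by
    have e : ratExtend K L g * algebraMap L[X] (RatFunc L) (g.denom.map (algebraMap K L)) =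
        algebraMap L[X] (RatFunc L) (g.num.map (algebraMap K L)) := by
      rw [← ratExtend_algebraMap, ← ratExtend_algebraMap, ← map_mul]
      congr 1
      conv_lhs => arg 1; rw [← RatFunc.num_div_denom g]
      rw [div_mul_cancel₀ _
        ((map_ne_zero_iff _ (RatFunc.algebraMap_injective K)).mpr g.denom_ne_zero)]
    refine ⟨EichlerShimura.mem_Loc.mpr ⟨_, _, hden g, e⟩, ?_⟩
    rw [evalLoc_eq _ (hden g) e, ratLine_eq_div, map_div₀, ← aeval_algHom_apply,
      ← aeval_algHom_apply, ← ht, eval_map, eval_map, ← aeval_def, ← aeval_def]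
  have hrepr : ∀ (z : F₀) i, B.b.repr (algebraMap F₀ E z) i = ratExtend K L (B.b₀.repr z i) :=
    fun z i => repr_b hx B z i
  have hmulmem : ∀ i j l, B.b.repr (B.b i * B.b j) l ∈ Loc t := fun i j l => by
    rw [B.compat, B.compat, ← map_mul, hrepr]
    exact (hgmem _).1
  have hrm : ∀ (y z : E) l, B.b.repr (y * z) l =
      ∑ i, ∑ j, B.b.repr y i * B.b.repr z j * B.b.repr (B.b i * B.b j) l := fun y z l => by
    conv_lhs => rw [← B.b.sum_repr y, ← B.b.sum_repr z, Finset.sum_mul]
    simp only [Finset.mul_sum, map_sum, smul_mul_assoc, mul_smul_comm, map_smul,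
      Finsupp.coe_finsetSum, Finsupp.coe_smul, Pi.smul_apply, Finset.sum_apply, smul_eq_mul]
    exact Finset.sum_congr rfl fun i _ => Finset.sum_congr rfl fun j _ => by ring
  have hconst : ∀ (c : L) i, B.b.repr (algebraMap L E c) i =
      RatFunc.C c * ratExtend K L (B.b₀.repr 1 i) := fun c i => by
    have h1 : algebraMap L E c = (RatFunc.C c : RatFunc L) • algebraMap F₀ E 1 := by
      rw [map_one (algebraMap F₀ E), ← Algebra.algebraMap_eq_smul_one (RatFunc.C c : RatFunc L)]
      exact (ratLine_C hE c).symm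
    rw [h1, map_smul, Finsupp.smul_apply, smul_eq_mul, hrepr]
  let S : Subalgebra L E :=
    { carrier := {y | ∀ i, B.b.repr y i ∈ Loc t}
      zero_mem' := fun i => by simp [zero_mem]
      one_mem' := fun i => by
        rw [← map_one (algebraMap F₀ E), hrepr]; exact (hgmem _).1
      add_mem' := fun {y z} hy hz i => by
        rw [map_add, Finsupp.add_apply]; exact add_mem (hy i) (hz i)
      mul_mem' := fun {y z} hy hz l => by
        rw [hrm]
        exact sum_mem fun i _ => sum_mem fun j _ => mul_mem (mul_mem (hy i) (hz j)) (hmulmem i j l)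
      algebraMap_mem' := fun c i => by
        rw [hconst]
        exact mul_mem (C_mem_Loc t c) (hgmem _).1 }
  let co : S → Fin B.n → Loc t := fun y i => ⟨B.b.repr (y : E) i, y.2 i⟩
  have hone : ∀ c : Loc t, ∑ i, evalLoc t (c * ⟨_, (hgmem (B.b₀.repr 1 i)).1⟩) * φ (B.b₀ i) =
      evalLoc t c := fun c => by
    simp only [map_mul, (hgmem _).2, mul_assoc, ← Finset.mul_sum]
    conv_rhs => rw [← mul_one (evalLoc t c), ← map_one φ, ← B.b₀.sum_repr (1 : F₀)]
    congr 1
    rw [map_sum]
    exact Finset.sum_congr rfl fun i _ => by rw [Algebra.smul_def, map_mul]; rfl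
  let χ : S →+* L :=
    { toFun := fun y => ∑ i, evalLoc t (co y i) * φ (B.b₀ i)
      map_zero' := Finset.sum_eq_zero fun i _ => by
        rw [show co 0 i = 0 from Subtype.ext (by simp [co]), map_zero, zero_mul]
      map_one' := by
        rw [← map_one (evalLoc t), ← hone 1]
        refine Finset.sum_congr rfl fun i _ => ?_
        rw [show co 1 i = 1 * ⟨_, (hgmem (B.b₀.repr 1 i)).1⟩ from Subtype.ext (by
          show B.b.repr 1 i = 1 * ratExtend K L _
          rw [one_mul, ← map_one (algebraMap F₀ E), hrepr])]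
      map_add' := fun y z => by
        rw [← Finset.sum_add_distrib]
        refine Finset.sum_congr rfl fun i _ => ?_
        rw [show co (y + z) i = co y i + co z i from Subtype.ext (by simp [co]), map_add, add_mul]
      map_mul' := fun y z => by
        have hco : ∀ l, co (y * z) l = ∑ i, ∑ j, co y i * co z j *
            ⟨_, (hgmem (B.b₀.repr (B.b₀ i * B.b₀ j) l)).1⟩ := fun l => Subtype.ext (by
          simp only [co, AddSubmonoidClass.coe_finsetSum, MulMemClass.coe_mul]
          rw [hrm]
          refine Finset.sum_congr rfl fun i _ => Finset.sum_congr rfl fun j _ => ?_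
          rw [B.compat, B.compat, ← map_mul, hrepr])
        simp only [hco, map_sum, map_mul, (hgmem _).2, Finset.sum_mul]
        rw [Finset.sum_comm]
        refine Finset.sum_congr rfl fun i _ => ?_
        rw [Finset.sum_comm, Finset.mul_sum]
        refine Finset.sum_congr rfl fun j _ => ?_
        simp only [mul_assoc, ← Finset.mul_sum]
        have : φ (B.b₀ i) * φ (B.b₀ j) =
            ∑ l, φ (ratLine hx (B.b₀.repr (B.b₀ i * B.b₀ j) l)) * φ (B.b₀ l) := by
          rw [← map_mul]
          conv_lhs => rw [← B.b₀.sum_repr (B.b₀ i * B.b₀ j), map_sum]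
          simp only [Algebra.smul_def, map_mul]
          rfl
        rw [← this]
        ring }
  have hχF : ∀ f : F₀, ∃ h : algebraMap F₀ E f ∈ S, χ ⟨_, h⟩ = φ f := fun f => by
    have h : algebraMap F₀ E f ∈ S := fun i => by rw [hrepr]; exact (hgmem _).1
    refine ⟨h, ?_⟩
    show ∑ i, evalLoc t (co ⟨_, h⟩ i) * φ (B.b₀ i) = φ f
    conv_rhs => rw [← B.b₀.sum_repr f, map_sum]
    refine Finset.sum_congr rfl fun i _ => ?_
    rw [show co ⟨_, h⟩ i = ⟨_, (hgmem (B.b₀.repr f i)).1⟩ from Subtype.ext (hrepr f i),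
      (hgmem _).2, Algebra.smul_def, map_mul]
    rfl
  have hχc : ∀ c : L, χ ⟨_, S.algebraMap_mem c⟩ = c := fun c => by
    have hc := hone ⟨_, C_mem_Loc t c⟩
    rw [evalLoc_eq (p := C c) (q := 1) ⟨_, C_mem_Loc t c⟩ (by simp)
      (by simp [RatFunc.algebraMap_C]), eval_C, eval_one, _root_.div_one] at hc
    refine Eq.trans ?_ hc
    show (∑ i, evalLoc t (co ⟨_, S.algebraMap_mem c⟩ i) * φ (B.b₀ i)) = _
    refine Finset.sum_congr rfl fun i _ => ?_
    rw [show co ⟨_, S.algebraMap_mem c⟩ i = ⟨_, C_mem_Loc t c⟩ *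
      ⟨_, (hgmem (B.b₀.repr 1 i)).1⟩ from Subtype.ext (hconst c i)]
  have hI0 : RingHom.ker χ ≠ ⊥ := by
    intro h
    obtain ⟨hm, hv⟩ := hχF x
    have h1 : (⟨_, hm⟩ : S) - ⟨_, S.algebraMap_mem t⟩ ∈ RingHom.ker χ := by
      rw [RingHom.mem_ker, map_sub, hv, hχc, sub_self]
    rw [h, Ideal.mem_bot, sub_eq_zero] at h1
    have h2 : algebraMap F₀ E x = algebraMap L E t := congrArg Subtype.val h1
    exact transcendental_map (L := L) (E := E) hx (h2 ▸ isAlgebraic_algebraMap t)
  obtain ⟨P, hSP, hIP⟩ := exists_place_of_ideal (K := L) S (RingHom.ker χ) (RingHom.ker_ne_top χ) hI0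
  refine ⟨P, fun f => ?_⟩
  obtain ⟨hm, hv⟩ := hχF f
  refine ⟨hSP _ hm, valAtP_eq_of_sub_mem P _ ?_⟩
  have key := hIP (⟨_, hm⟩ - ⟨_, S.algebraMap_mem (φ f)⟩)
    (by rw [RingHom.mem_ker, map_sub, hv, hχc, sub_self])
  rwa [AddSubgroupClass.coe_sub] at key

omit [IsAlgClosed L] in
/-- The constant extension exists. -/
theorem exists_constExt.{v} (K F₀ L : Type v) [Field K] [Field F₀] [Field L] [Algebra K F₀]
    [Algebra K L] [IsFunctionField K F₀] :
    ∃ (E : Type v) (_ : Field E) (_ : Algebra L E) (_ : Algebra F₀ E) (_ : Algebra K E),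
      IsScalarTower K L E ∧ IsScalarTower K F₀ E ∧ IsConstExt K F₀ L E := by
  obtain ⟨x, hx, hfin⟩ := IsFunctionField.exists_finite (K := K) (F := F₀)
  let Ω := AlgebraicClosure (RatFunc L)
  let _ := ratAlgebra hx
  have := finite_ratAlgebra hx
  let _ : Algebra (RatFunc K) Ω :=
    ((algebraMap (RatFunc L) Ω).comp (ratExtend K L)).toAlgebra
  let e : F₀ →ₐ[RatFunc K] Ω := IsAlgClosed.lift
  let F' : IntermediateField L Ω := IntermediateField.adjoin L (Set.range e)
  let i : F₀ →+* F' :=
    e.toRingHom.codRestrict F'.toSubfield fun f => subset_adjoin L _ ⟨f, rfl⟩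
  let a1 : Algebra F₀ F' := i.toAlgebra
  let a2 : Algebra K F' := ((algebraMap L F').comp (algebraMap K L)).toAlgebra
  refine ⟨F', inferInstance, inferInstance, a1, a2, IsScalarTower.of_algebraMap_eq fun _ => rfl,
    IsScalarTower.of_algebraMap_eq fun k => ?_, ⟨?_, x, ?_⟩⟩
  · refine Subtype.ext ?_
    show ((algebraMap L F' (algebraMap K L k)) : Ω) = e (algebraMap K F₀ k)
    rw [← ratLine_C hx k, show ratLine hx (RatFunc.C k) = algebraMap (RatFunc K) F₀ _ from rfl,
      e.commutes]
    show algebraMap L Ω (algebraMap K L k) = algebraMap (RatFunc L) Ω (ratExtend K L (RatFunc.C k))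
    rw [ratExtend_C, IsScalarTower.algebraMap_apply L (RatFunc L) Ω, RatFunc.algebraMap_eq_C]
  · refine IntermediateField.map_injective F'.val ?_
    rw [adjoin_map, ← Set.range_comp, ← AlgHom.fieldRange_eq_map, IntermediateField.fieldRange_val]
    rfl
  · intro halg
    have h := halg.algHom F'.val
    have hX : algebraMap (RatFunc L) Ω RatFunc.X = e x := by
      rw [← ratExtend_X (K := K)]
      conv_rhs => rw [← ratLine_X hx]
      exact (e.commutes RatFunc.X).symm
    rw [show F'.val (algebraMap F₀ F' x) = e x from rfl, ← hX] at h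
    exact transcendental_ratFuncX ((isAlgebraic_algebraMap_iff
      (algebraMap (RatFunc L) Ω).injective).mp h)

end Fermat.Agent.AV.Const
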