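import Fermat.Agent.AV.Const.Line

/-!
# The Gauss valuation of a constant curve

The valuation ring of `E` above `A` with residue field `F₀`; it is the lattice of every line model.
-/

set_option autoImplicit false

noncomputable section

open scoped Classical
open Polynomial IsLocalRing IntermediateField

namespace Fermat.Agent.AV.Const

open Fermat.Agent.FF Fermat.Agent.RedTorsion Fermat.Agent.EichlerShimura

variable (K F₀ : Type*) {L : Type*} (E : Type*) [Field K] [Field F₀] [Field L] [Field E]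
  [Algebra K F₀] [Algebra K L] [Algebra L E] [Algebra F₀ E]

/-- The Gauss valuation ring with its reduction. -/
structure GaussRed (A : ValuationSubring L) [IsConstPlace K A] where
  sub : ValuationSubring E
  red : sub →+* F₀
  mem_const : ∀ a : A, algebraMap L E a ∈ sub
  red_const : ∀ a : A, red ⟨_, mem_const a⟩ = algebraMap K F₀ (valueA K A a)
  mem_fun : ∀ f : F₀, algebraMap F₀ E f ∈ sub
  red_fun : ∀ f : F₀, red ⟨_, mem_fun f⟩ = f
  inv_mem : ∀ y : sub, red y ≠ 0 → (y : E)⁻¹ ∈ sub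
  scale : ∀ y : E, y ≠ 0 →
    ∃ c : L, c ≠ 0 ∧ ∃ z : sub, y = algebraMap L E c * (z : E) ∧ red z ≠ 0

variable {K F₀ E}

namespace GaussRed

variable {A : ValuationSubring L} [IsConstPlace K A] (G : GaussRed K F₀ E A)

theorem red_constA (k : K) : G.red ⟨_, G.mem_const (constA K A k)⟩ = algebraMap K F₀ k := by
  rw [G.red_const, valueA_constA]

theorem red_eq_zero_of_mem {a : A} (ha : (a : L) ∈ A.nonunits) :
    G.red ⟨_, G.mem_const a⟩ = 0 := by
  rw [G.red_const, (valueA_eq_zero_iff K A a).mpr ha, map_zero]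

theorem mem_of_const_mem {c : L} (hc : algebraMap L E c ∈ G.sub) : c ∈ A := by
  by_contra h
  have hi : c⁻¹ ∈ A := (A.mem_or_inv_mem c).resolve_left h
  have hc0 : c ≠ 0 := fun h0 => h (h0 ▸ zero_mem _)
  have h1 : G.red ⟨_, G.mem_const ⟨c⁻¹, hi⟩⟩ = 0 :=
    G.red_eq_zero_of_mem (A.inv_mem_nonunits_iff.mpr (Or.inr h))
  have h2 : G.red (⟨_, hc⟩ * ⟨_, G.mem_const ⟨c⁻¹, hi⟩⟩) = 1 := by
    rw [← map_one G.red]
    refine congrArg _ (Subtype.ext ?_)
    show algebraMap L E c * algebraMap L E c⁻¹ = 1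
    rw [← map_mul, mul_inv_cancel₀ hc0, map_one]
  rw [map_mul, h1, mul_zero] at h2
  exact zero_ne_one h2

theorem red_inv (y : G.sub) (hy : G.red y ≠ 0) :
    G.red ⟨_, G.inv_mem y hy⟩ = (G.red y)⁻¹ := by
  refine eq_inv_of_mul_eq_one_right ?_
  rw [← map_mul, ← map_one G.red]
  exact congrArg _ (Subtype.ext (mul_inv_cancel₀ fun h => hy (by
    rw [show y = 0 from Subtype.ext h, map_zero])))

end GaussRed

variable [Algebra K E] [IsScalarTower K L E]
  [IsScalarTower K F₀ E] [IsAlgClosed K] [IsAlgClosed L] [IsFunctionField K F₀]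
  [IsConstExt K F₀ L E] {A : ValuationSubring L} [IsConstPlace K A]

theorem exists_gaussRed (A : ValuationSubring L) [IsConstPlace K A] :
    Nonempty (GaussRed K F₀ E A) := by
  obtain ⟨x, hx, hs⟩ := exists_separable_line K F₀
  obtain ⟨B⟩ := exists_lineBasis (L := L) (E := E) hx
  let _ := ratAlgebra (transcendental_map (L := L) (E := E) hx)
  let _ := algRatKappa K A hx
  have := lineE_tower (E := E) (L := L) hx
  set M := lineModel A hx B with hM
  have hC : ∀ a : A, algebraMap L E a = algebraMap (RatFunc L) E (RatFunc.C (a : L)) := fun a => by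
    rw [IsScalarTower.algebraMap_apply L (RatFunc L) E, RatFunc.algebraMap_eq_C]
  have hCmem : ∀ a : A, algebraMap L E a ∈ M.S := fun a =>
    hC a ▸ M.algebraMap_mem (C_mem_Og a.2)
  have hCred : ∀ a : A, M.red ⟨_, hCmem a⟩ = algebraMap K F₀ (valueA K A a) := fun a => by
    have ha : RatFunc.C (a : L) ∈ Og A := C_mem_Og a.2
    rw [show (⟨_, hCmem a⟩ : M.S) = ⟨_, M.algebraMap_mem ha⟩ from Subtype.ext (hC a),
      M.red_algebraMap ha, redG_C a.2]
    let _ := algKappa K A F₀
    have := algKappa_tower K A hx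
    rw [← RatFunc.algebraMap_eq_C, ← IsScalarTower.algebraMap_apply]
    rfl
  have hscale : ∀ y : E, y ≠ 0 → ∃ c : L, c ≠ 0 ∧ ∃ z : M.S,
      y = algebraMap L E c * (z : E) ∧ M.red z ≠ 0 := fun y hy => by
    obtain ⟨c, hc, z, hz, hz'⟩ := M.exists_scale' hy
    exact ⟨c, hc, z, by rw [hz, IsScalarTower.algebraMap_apply L (RatFunc L) E,
      RatFunc.algebraMap_eq_C], hz'⟩
  have hinv : ∀ y : M.S, M.red y ≠ 0 → (y : E)⁻¹ ∈ M.S := fun y hy => by
    have hy0 : (y : E) ≠ 0 := fun h => hy (by rw [show y = 0 from Subtype.ext h, map_zero])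
    obtain ⟨c, hc, z, hz, hz'⟩ := hscale _ (inv_ne_zero hy0)
    suffices h : c ∈ A by rw [hz]; exact mul_mem (hCmem ⟨c, h⟩) z.2
    by_contra h
    have hi : c⁻¹ ∈ A := (A.mem_or_inv_mem c).resolve_left h
    have h1 : y * z = ⟨_, hCmem ⟨c⁻¹, hi⟩⟩ := Subtype.ext (by
      show (y : E) * z = algebraMap L E c⁻¹
      rw [map_inv₀]
      refine eq_inv_of_mul_eq_one_left ?_
      rw [mul_assoc, mul_comm (z : E), ← hz, mul_inv_cancel₀ hy0])
    refine mul_ne_zero hy hz' ?_
    rw [← map_mul, h1, hCred, (valueA_eq_zero_iff K A _).mpr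
      (A.inv_mem_nonunits_iff.mpr (Or.inr h)), map_zero]
  let V : ValuationSubring E :=
    { M.S with
      mem_or_inv_mem' := fun y => by
        rcases eq_or_ne y 0 with rfl | hy
        · exact Or.inl M.S.zero_mem
        obtain ⟨c, hc, z, hz, hz'⟩ := hscale y hy
        rcases A.mem_or_inv_mem c with h | h
        · exact Or.inl (hz ▸ mul_mem (hCmem ⟨c, h⟩) z.2)
        · refine Or.inr ?_
          show y⁻¹ ∈ M.S
          rw [hz, mul_inv, ← map_inv₀]
          exact mul_mem (hCmem ⟨c⁻¹, h⟩) (hinv z hz') }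
  have hF : ∀ f : F₀, algebraMap F₀ E f ∈ M.S := fun f i => by
    show B.b.repr _ i ∈ Og A
    rw [repr_b]
    exact ratExtend_mem_Og K A _
  refine ⟨⟨V, M.red, hCmem, hCred, hF, fun f => ?_, hinv, hscale⟩⟩
  refine M.bb.ext_elem fun i => ?_
  refine (M.repr_red ⟨_, hF f⟩ i).trans ?_
  show redG A ⟨B.b.repr (algebraMap F₀ E f) i, _⟩ = kappaHom K A _
  rw [kappaHom_apply]
  exact congrArg _ (Subtype.ext (repr_b hx B f i))

variable (G : GaussRed K F₀ E A) {x : F₀} (hx : Transcendental K x)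

/-- A line model has the Gauss ring as lattice. -/
theorem GaussRed.eq_model (B : LineBasis (L := L) (E := E) hx) [Algebra.IsSeparable K⟮x⟯ F₀] :
    letI := ratAlgebra (transcendental_map (L := L) (E := E) hx)
    letI := algRatKappa K A hx
    ∀ y : E, (y ∈ (lineModel A hx B).S ↔ y ∈ G.sub) ∧
      ∀ (h : y ∈ (lineModel A hx B).S) (h' : y ∈ G.sub),
        (lineModel A hx B).red ⟨y, h⟩ = G.red ⟨y, h'⟩ := by
  have hE := transcendental_map (L := L) (E := E) hx
  let _ := ratAlgebra hE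
  let _ := algRatKappa K A hx
  have := lineE_tower (E := E) (L := L) hx
  set M := lineModel A hx B
  let ev : A[X] →+* G.sub :=
    eval₂RingHom (((algebraMap L E).comp A.subtype).codRestrict G.sub.toSubring G.mem_const)
      ⟨_, G.mem_fun x⟩
  have hev : ∀ p : A[X], (ev p : E) = algebraMap (RatFunc L) E (ratIncl A p) := fun p => by
    refine RingHom.congr_fun (f := G.sub.subtype.comp ev)
      (g := (algebraMap (RatFunc L) E).comp (ratIncl A)) ?_ p
    refine Polynomial.ringHom_ext (fun a => ?_) ?_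
    · simp only [ev, RingHom.comp_apply, coe_eval₂RingHom, eval₂_C, ratIncl_C,
        ← RatFunc.algebraMap_eq_C, ← IsScalarTower.algebraMap_apply]
      rfl
    · show ((eval₂ _ _ X : G.sub) : E) = ratLine hE _
      rw [eval₂_X, ratIncl, RingHom.comp_apply, polyIncl, coe_mapRingHom, map_X,
        RatFunc.algebraMap_X, ratLine_X]
  have hevred : ∀ p : A[X], G.red (ev p) = algebraMap (RatFunc (Kappa A)) F₀ (ratBar A p) :=
    fun p => by
    refine RingHom.congr_fun (f := G.red.comp ev)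
      (g := (algebraMap (RatFunc (Kappa A)) F₀).comp (ratBar A)) ?_ p
    refine Polynomial.ringHom_ext (fun a => ?_) ?_
    · let _ := algKappa K A F₀
      have := algKappa_tower K A hx
      simp only [ev, RingHom.comp_apply, coe_eval₂RingHom, eval₂_C, ratBar_C,
        ← RatFunc.algebraMap_eq_C, ← IsScalarTower.algebraMap_apply]
      exact G.red_const a
    · simp only [ev, RingHom.comp_apply, coe_eval₂RingHom, eval₂_X]
      rw [ratBar, RingHom.comp_apply, polyBar, coe_mapRingHom, map_X, RatFunc.algebraMap_X,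
        algRatKappa_X]
      exact G.red_fun x
  have hOg : ∀ (f : RatFunc L) (hf : f ∈ Og A), ∃ h : algebraMap (RatFunc L) E f ∈ G.sub,
      G.red ⟨_, h⟩ = algebraMap (RatFunc (Kappa A)) F₀ (redG A ⟨f, hf⟩) := by
    intro f hf
    obtain ⟨p, q, hq, hpq⟩ := mem_Og.mp hf
    have hq0 : G.red (ev q) ≠ 0 := by
      rw [hevred, _root_.map_ne_zero]
      exact ratBar_ne_zero_of_mem hq
    have hne : (ev q : E) ≠ 0 := fun h => hq0 (by
      rw [show ev q = 0 from Subtype.ext h, map_zero])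
    have hval : algebraMap (RatFunc L) E f = (ev p : E) * (ev q : E)⁻¹ := by
      rw [eq_mul_inv_iff_mul_eq₀ hne, hev, hev, ← map_mul, hpq]
    refine ⟨hval ▸ mul_mem (ev p).2 (G.inv_mem _ hq0), ?_⟩
    rw [show (⟨_, _⟩ : G.sub) = ev p * ⟨_, G.inv_mem _ hq0⟩ from Subtype.ext hval, map_mul,
      G.red_inv _ hq0, hevred, hevred, ← map_inv₀, ← map_mul, redG_eq ⟨f, hf⟩ hq hpq,
      div_eq_mul_inv]
  have hb : ∀ i, M.b i = algebraMap F₀ E ((kappaBasis A hx B) i) := fun i => by
    show B.b i = _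
    rw [B.compat]
    simp only [kappaBasis, Module.Basis.mapCoeffs_apply]
  have hle : ∀ y (hy : y ∈ M.S), ∃ h : y ∈ G.sub, G.red ⟨y, h⟩ = M.red ⟨y, hy⟩ := by
    intro y hy
    choose h1 h2 using fun i => hOg (M.b.repr y i) (hy i)
    let w : G.sub := ∑ i, (⟨_, h1 i⟩ : G.sub) * ⟨_, G.mem_fun (kappaBasis A hx B i)⟩
    have hw : (w : E) = y := by
      conv_rhs => rw [← M.b.sum_repr y]
      simp only [w, AddSubmonoidClass.coe_finsetSum, MulMemClass.coe_mul]
      refine Finset.sum_congr rfl fun i _ => ?_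
      rw [Algebra.smul_def, hb]
    refine ⟨hw ▸ w.2, ?_⟩
    rw [show (⟨y, _⟩ : G.sub) = w from Subtype.ext hw.symm, map_sum, M.red_apply]
    refine Finset.sum_congr rfl fun i _ => ?_
    rw [map_mul, h2, G.red_fun, Algebra.smul_def]
    rfl
  intro y
  refine ⟨⟨fun h => (hle y h).1, fun h => ?_⟩, fun h _ => ((hle y h).2).symm⟩
  rcases eq_or_ne y 0 with rfl | hy
  · exact zero_mem _
  obtain ⟨c, hc, z, hz, hz'⟩ := M.exists_scale' hy
  obtain ⟨hzG, hzr⟩ := hle _ z.2
  have hzi : (z : E)⁻¹ ∈ G.sub := G.inv_mem ⟨_, hzG⟩ (by rw [hzr]; exact hz')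
  have hz0 : (z : E) ≠ 0 := fun h0 => hz' (by rw [show z = 0 from Subtype.ext h0, map_zero])
  have hcA : c ∈ A := G.mem_of_const_mem (by
    have := mul_mem h hzi
    rwa [hz, mul_assoc, mul_inv_cancel₀ hz0, mul_one,
      ← RatFunc.algebraMap_eq_C, ← IsScalarTower.algebraMap_apply] at this)
  rw [hz]
  exact mul_mem (M.algebraMap_mem (C_mem_Og hcA)) z.2

end Fermat.Agent.AV.Const
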