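import Fermat.Agent.AV.Const.Compositum
import Fermat.Agent.FiniteFlat.CurveLemmas

/-!
# A nonspecial divisor of degree the genus
-/

set_option autoImplicit false

noncomputable section

open scoped Classical
open Polynomial IsLocalRing IntermediateField AlgebraicCurve

namespace Fermat.Agent.AV.Const

open Fermat.Agent.FF Fermat.Agent.RedTorsion Fermat.Agent.EichlerShimura

section FunctionField

variable (K F : Type*) [Field K] [Field F] [Algebra K F] [IsFunctionField K F] [IsAlgClosed K]

theorem infinite_place : Infinite (Place K F) :=
  FiniteFlat.infinite_place

/-- An effective nonspecial divisor of degree the genus. -/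
theorem exists_genus_divisor : ∃ D : Divisor K F, 0 ≤ D ∧ ell K D = 1 ∧
    Divisor.degree D = genusFF K F := by
  obtain ⟨B, h0, hd, -, hl⟩ := FiniteFlat.exists_generic (fun _ : Unit => (0 : Divisor K F))
    (fun _ => map_zero _) Set.finite_empty
  exact ⟨B, h0, by simpa using hl (), hd⟩

end FunctionField

end Fermat.Agent.AV.Const
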