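import Fermat.Agent.AV.Const.Compositum
import Fermat.Agent.AV.Const.ConstPlace

/-!
# The model of a constant curve along a line

For a place `A` of `L` with residue field `K` the basis of `E/L(x)` coming from `F₀/K(x)` has good
reduction, with reduction `F₀`.
-/

set_option autoImplicit false
set_option linter.unusedSectionVars false

noncomputable section

open scoped Classical
open Polynomial IsLocalRing IntermediateField

namespace Fermat.Agent.AV.Const

open Fermat.Agent.FF Fermat.Agent.RedTorsion Fermat.Agent.EichlerShimura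

section Kappa

variable (K : Type*) {L : Type*} [Field K] [Field L] [Algebra K L] (A : ValuationSubring L)
  [IsConstPlace K A]

theorem map_mem_unitPolys {q : K[X]} (hq : q ≠ 0) : q.map (constA K A) ∈ unitPolys A := by
  show polyBar A (q.map (constA K A)) ≠ 0
  rw [polyBar, coe_mapRingHom, Polynomial.map_map]
  exact (Polynomial.map_ne_zero_iff (RingHom.injective _)).mpr hq

theorem ratIncl_map (q : K[X]) :
    ratIncl A (q.map (constA K A)) = ratExtend K L (algebraMap K[X] (RatFunc K) q) := by
  rw [ratExtend_algebraMap, ratIncl, RingHom.comp_apply, polyIncl, coe_mapRingHom,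
    Polynomial.map_map]
  rfl

theorem ratExtend_mem_Og (g : RatFunc K) : ratExtend K L g ∈ Og A := by
  refine mem_Og.mpr ⟨g.num.map (constA K A), g.denom.map (constA K A),
    map_mem_unitPolys K A g.denom_ne_zero, ?_⟩
  rw [ratIncl_map, ratIncl_map, ← map_mul]
  congr 1
  conv_lhs => arg 1; rw [← RatFunc.num_div_denom g]
  rw [div_mul_cancel₀ _
    ((map_ne_zero_iff _ (RatFunc.algebraMap_injective K)).mpr g.denom_ne_zero)]

/-- `K(X) → k(X)`. -/
def kappaHom : RatFunc K →+* RatFunc (Kappa A) :=
  (redG A).comp ((ratExtend K L).codRestrict (Og A).toSubring (ratExtend_mem_Og K A))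

theorem kappaHom_apply (g : RatFunc K) :
    kappaHom K A g = redG A ⟨_, ratExtend_mem_Og K A g⟩ := rfl

theorem kappaHom_algebraMap (p : K[X]) :
    kappaHom K A (algebraMap K[X] (RatFunc K) p) =
      algebraMap (Kappa A)[X] (RatFunc (Kappa A)) (p.map (kEquiv K A).toRingHom) := by
  have h1 : (⟨_, ratExtend_mem_Og K A (algebraMap K[X] (RatFunc K) p)⟩ : Og A) =
      ⟨ratIncl A (p.map (constA K A)), apply_mem_fracPart _⟩ :=
    Subtype.ext (ratIncl_map K A p).symm
  rw [kappaHom_apply, h1, redG_ratIncl, ratBar, RingHom.comp_apply, polyBar, coe_mapRingHom,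
    Polynomial.map_map]
  rfl

theorem bijective_kappaHom : Function.Bijective (kappaHom K A) := by
  refine ⟨RingHom.injective _, fun f => ?_⟩
  obtain ⟨p, hp⟩ := map_surjective (kEquiv K A).toRingHom (kEquiv K A).surjective f.num
  obtain ⟨q, hq⟩ := map_surjective (kEquiv K A).toRingHom (kEquiv K A).surjective f.denom
  refine ⟨algebraMap K[X] (RatFunc K) p / algebraMap K[X] (RatFunc K) q, ?_⟩
  rw [map_div₀, kappaHom_algebraMap, kappaHom_algebraMap, hp, hq, RatFunc.num_div_denom]

/-- `K(X) ≅ k(X)`. -/
def kappaRat : RatFunc K ≃+* RatFunc (Kappa A) :=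
  RingEquiv.ofBijective _ (bijective_kappaHom K A)

theorem kappaRat_apply (g : RatFunc K) : kappaRat K A g = kappaHom K A g := rfl

theorem kappaRat_symm_algebraMap (p : K[X]) :
    (kappaRat K A).symm (algebraMap (Kappa A)[X] (RatFunc (Kappa A))
      (p.map (kEquiv K A).toRingHom)) = algebraMap K[X] (RatFunc K) p := by
  rw [← kappaHom_algebraMap, ← kappaRat_apply, RingEquiv.symm_apply_apply]

variable (F₀ : Type*) [Field F₀] [Algebra K F₀]

/-- `F₀` over the residue field. -/
@[reducible] def algKappa : Algebra (Kappa A) F₀ :=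
  ((algebraMap K F₀).comp (kEquiv K A).symm.toRingHom).toAlgebra

variable {F₀} {x : F₀} (hx : Transcendental K x)

/-- `F₀` over the rational functions of the residue field. -/
@[reducible] def algRatKappa : Algebra (RatFunc (Kappa A)) F₀ :=
  ((ratLine hx).comp (kappaRat K A).symm.toRingHom).toAlgebra

theorem algKappa_tower :
    letI := algKappa K A F₀; letI := algRatKappa K A hx
    IsScalarTower (Kappa A) (RatFunc (Kappa A)) F₀ := by
  let _ := algKappa K A F₀
  let _ := algRatKappa K A hx
  refine IsScalarTower.of_algebraMap_eq fun c => ?_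
  obtain ⟨k, rfl⟩ := (kEquiv K A).surjective c
  show algebraMap K F₀ ((kEquiv K A).symm (kEquiv K A k)) = ratLine hx ((kappaRat K A).symm _)
  rw [RingEquiv.symm_apply_apply, RatFunc.algebraMap_eq_C, ← RatFunc.algebraMap_C,
    show (C (kEquiv K A k) : (Kappa A)[X]) = (C k).map (kEquiv K A).toRingHom by rw [map_C]; rfl,
    kappaRat_symm_algebraMap, ratLine_algebraMap, aeval_C]

theorem algRatKappa_X :
    letI := algRatKappa K A hx
    algebraMap (RatFunc (Kappa A)) F₀ RatFunc.X = x := by
  show ratLine hx ((kappaRat K A).symm RatFunc.X) = x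
  rw [← RatFunc.algebraMap_X, ← map_X (kEquiv K A).toRingHom, kappaRat_symm_algebraMap,
    ratLine_algebraMap, aeval_X]

end Kappa

variable {K F₀ L E : Type*} [Field K] [Field F₀] [Field L] [Field E] [Algebra K F₀]
  [Algebra K L] [Algebra L E] [Algebra F₀ E] [Algebra K E] [IsScalarTower K L E]
  [IsScalarTower K F₀ E] [IsAlgClosed K] [IsAlgClosed L] [IsFunctionField K F₀]
  [IsConstExt K F₀ L E] (A : ValuationSubring L) [IsConstPlace K A]
  {x : F₀} (hx : Transcendental K x)

theorem lineE_tower :
    letI := ratAlgebra (transcendental_map (L := L) (E := E) hx)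
    IsScalarTower L (RatFunc L) E :=
  letI := ratAlgebra (transcendental_map (L := L) (E := E) hx)
  IsScalarTower.of_algebraMap_eq fun c =>
    (ratLine_C (transcendental_map (L := L) (E := E) hx) c).symm

/-- The basis of `F₀` over the rational functions of the residue field. -/
def kappaBasis (B : LineBasis (L := L) (E := E) hx) :
    letI := algRatKappa K A hx
    Module.Basis (Fin B.n) (RatFunc (Kappa A)) F₀ :=
  letI := ratAlgebra hx
  letI := algRatKappa K A hx
  B.b₀.mapCoeffs (kappaRat K A) fun c y => by
    rw [Algebra.smul_def, Algebra.smul_def]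
    show ratLine hx ((kappaRat K A).symm (kappaRat K A c)) * y = ratLine hx c * y
    rw [RingEquiv.symm_apply_apply]

theorem repr_b (B : LineBasis (L := L) (E := E) hx) (z : F₀) (i : Fin B.n) :
    letI := ratAlgebra hx
    letI := ratAlgebra (transcendental_map (L := L) (E := E) hx)
    B.b.repr (algebraMap F₀ E z) i = ratExtend K L (B.b₀.repr z i) := by
  let _ := ratAlgebra hx
  let _ := ratAlgebra (transcendental_map (L := L) (E := E) hx)
  have h : algebraMap F₀ E z = ∑ j, ratExtend K L (B.b₀.repr z j) • B.b j := by
    conv_lhs => rw [← B.b₀.sum_repr z, map_sum]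
    refine Finset.sum_congr rfl fun j _ => ?_
    rw [B.compat, Algebra.smul_def, Algebra.smul_def, map_mul]
    congr 1
    exact algebraMap_ratLine hx _
  rw [h, B.b.repr_sum_self]

theorem repr_kappaBasis (B : LineBasis (L := L) (E := E) hx) (z : F₀) (i : Fin B.n) :
    letI := ratAlgebra hx
    letI := algRatKappa K A hx
    (kappaBasis A hx B).repr z i = kappaHom K A (B.b₀.repr z i) := by
  let _ := ratAlgebra hx
  let _ := algRatKappa K A hx
  rfl

/-- The model. -/
def lineModel (B : LineBasis (L := L) (E := E) hx) [Algebra.IsSeparable K⟮x⟯ F₀] :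
    letI := ratAlgebra (transcendental_map (L := L) (E := E) hx)
    letI := algRatKappa K A hx
    Model A (Fin B.n) E F₀ :=
  letI := ratAlgebra hx
  letI := ratAlgebra (transcendental_map (L := L) (E := E) hx)
  letI := algRatKappa K A hx
  { b := B.b
    bb := kappaBasis A hx B
    one_int := fun i => by
      rw [← map_one (algebraMap F₀ E), repr_b]
      exact ratExtend_mem_Og K A _
    one_red := fun i => by
      rw [repr_kappaBasis, kappaHom_apply]
      exact congrArg _ (Subtype.ext (show B.b.repr 1 i = ratExtend K L (B.b₀.repr 1 i) by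
        rw [← map_one (algebraMap F₀ E), repr_b]))
    mul_int := fun i j l => by
      rw [B.compat, B.compat, ← map_mul, repr_b]
      exact ratExtend_mem_Og K A _
    mul_red := fun i j l => by
      rw [repr_kappaBasis, kappaHom_apply]
      exact congrArg _ (Subtype.ext (show B.b.repr (B.b i * B.b j) l =
          ratExtend K L (B.b₀.repr (kappaBasis A hx B i * kappaBasis A hx B j) l) by
        rw [B.compat, B.compat, ← map_mul, repr_b]
        simp only [kappaBasis, Module.Basis.mapCoeffs_apply]))
    disc_ne := fun {_} => by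
      have := isSeparable_ratAlgebra hx
      have : Module.Finite (RatFunc (Kappa A)) F₀ := Module.Finite.of_basis (kappaBasis A hx B)
      have : Algebra.IsSeparable (RatFunc (Kappa A)) F₀ :=
        Algebra.IsSeparable.of_equiv_equiv (kappaRat K A) (RingEquiv.refl F₀)
          (RingHom.ext fun g => by
            show ratLine hx ((kappaRat K A).symm (kappaRat K A g)) = _
            rw [RingEquiv.symm_apply_apply]; rfl)
      exact Algebra.discr_not_zero_of_basis _ _ }

end Fermat.Agent.AV.Const
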