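import Fermat.Agent.AV.Const.Regular
import Fermat.Agent.Arith.ValNormalize

/-!
# Constant points and the genus of the constant extension
-/

set_option autoImplicit false
set_option linter.unusedSectionVars false

noncomputable section

open scoped Classical
open Polynomial IsLocalRing IntermediateField AlgebraicCurve

namespace Fermat.Agent.AV.Const

open Fermat.Agent.FF Fermat.Agent.RedTorsion Fermat.Agent.EichlerShimura


variable {K F₀ L E : Type*} [Field K] [Field F₀] [Field L] [Field E] [Algebra K F₀]
  [Algebra K L] [Algebra L E] [Algebra F₀ E] [Algebra K E] [IsScalarTower K L E]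
  [IsScalarTower K F₀ E] [IsAlgClosed K] [IsAlgClosed L] [IsFunctionField K F₀]
  [IsConstExt K F₀ L E] [IsFunctionField L E]

/-- The point over a place of `F₀`. -/
theorem exists_cst (Q : Place K F₀) : ∃ P : Place L E,
    (∀ f : F₀, f ≠ 0 → P.ord (algebraMap F₀ E f) = Q.ord f) ∧
      ∀ P' : Place L E, (∀ f : F₀, f ≠ 0 → 0 < Q.ord f → 0 < P'.ord (algebraMap F₀ E f)) →
        P' = P := by
  obtain ⟨x, hx, hsep, hc⟩ := exists_centred Q
  obtain ⟨B⟩ := exists_lineBasis (L := L) (E := E) hx
  have hE := transcendental_map (L := L) (E := E) hx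
  let _ := ratAlgebra hE
  have := Module.Finite.of_basis B.b
  have := lineE_tower (E := E) (L := L) hx
  have hxQ : 0 < Q.ord x := (hc Q).mpr rfl
  have hx0 : x ≠ 0 := fun h => by simp [h] at hxQ
  have hn : Q.ord x = B.n := by
    let _ := ratAlgebra hx
    have h1 := degree_zeros (K := K) hx
    have h2 : poles K x⁻¹ = Finsupp.single Q (Q.ord x) := by
      ext v
      rcases eq_or_ne v Q with rfl | hv
      · simp only [poles_apply, Place.ord_inv, neg_neg, Finsupp.single_eq_same]
        exact max_eq_right hxQ.le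
      · rw [poles_apply, Finsupp.single_eq_of_ne hv, Place.ord_inv, neg_neg,
          max_eq_left (not_lt.mp fun h => hv ((hc v).mp h))]
    rw [h2, Divisor.degree_single, deg_eq_one, ← finrank_ratAlgebra hx,
      Module.finrank_eq_card_basis B.b₀, Fintype.card_fin] at h1
    simpa using h1
  have hX : algebraMap (RatFunc L) E (unifAt (0 : L)) = algebraMap F₀ E x := by
    rw [unifAt_eq, map_zero, sub_zero]
    exact ratLine_X hE
  -- a place where `x` vanishes lies over `Q`
  have key : ∀ P : Place L E, 0 < P.ord (algebraMap F₀ E x) →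
      P.restrict (RatFunc L) = placeAtPt 0 ∧ ∃ e : ℕ, 0 < e ∧
        (∀ f : F₀, f ≠ 0 → P.ord (algebraMap F₀ E f) = e * Q.ord f) := by
    intro P hP
    have hmem : ∀ f ∈ Q.toValuationSubring, algebraMap F₀ E f ∈ P.toValuationSubring := by
      have hK : ∀ k : K, algebraMap K F₀ k ∈ P.toValuationSubring.comap (algebraMap F₀ E) :=
        fun k => by
          rw [ValuationSubring.mem_comap, ← IsScalarTower.algebraMap_apply,
            IsScalarTower.algebraMap_apply K L E]
          exact P.algebraMap_mem' _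
      have hne : P.toValuationSubring.comap (algebraMap F₀ E) ≠ ⊤ := fun h => by
        have h1 : x⁻¹ ∈ P.toValuationSubring.comap (algebraMap F₀ E) :=
          h ▸ ValuationSubring.mem_top _
        rw [ValuationSubring.mem_comap, map_inv₀] at h1
        have h2 := ord_nonneg P h1
        rw [Place.ord_inv] at h2
        omega
      have h3 := (hc (placeOfValuationSubring _ hK hne)).mp ((ord_pos_iff _ hx0).mpr
        (mem_nonunits_comap.mpr ((ord_pos_iff P ((_root_.map_ne_zero _).mpr hx0)).mp hP)))
      intro f hf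
      rw [← h3] at hf
      exact hf
    obtain ⟨π, hπ0, hπ⟩ := exists_uniformizer Q
    have hall : ∀ f : F₀, f ≠ 0 →
        P.ord (algebraMap F₀ E f) = Q.ord f * P.ord (algebraMap F₀ E π) := by
      intro f hf
      set u := f * π ^ (-Q.ord f) with hu
      have hu0 : u ≠ 0 := mul_ne_zero hf (zpow_ne_zero _ hπ0)
      have huQ : Q.ord u = 0 := by
        rw [hu, Q.ord_mul hf (zpow_ne_zero _ hπ0), Q.ord_zpow, hπ]
        ring
      have h1 := ord_nonneg P (hmem u ((mem_iff_ord Q hu0).mpr huQ.ge))
      have h2 := ord_nonneg P (hmem u⁻¹ ((mem_iff_ord Q (inv_ne_zero hu0)).mpr (by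
        rw [Place.ord_inv, huQ]; simp)))
      rw [map_inv₀, Place.ord_inv] at h2
      have h3 : P.ord (algebraMap F₀ E u) = 0 := by omega
      rw [hu, map_mul, map_zpow₀, P.ord_mul ((_root_.map_ne_zero _).mpr hf)
        (zpow_ne_zero _ ((_root_.map_ne_zero _).mpr hπ0)), P.ord_zpow] at h3
      linarith
    have hπpos : 0 < P.ord (algebraMap F₀ E π) := by
      have := hall x hx0
      rw [this] at hP
      exact pos_of_mul_pos_right hP hxQ.le
    refine ⟨restrict_eq_placeAtPt_iff P fun f hf => ?_, (P.ord (algebraMap F₀ E π)).toNat,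
      by omega, fun f hf => by rw [hall f hf, Int.toNat_of_nonneg hπpos.le]; ring⟩
    have h1 : (P.restrict (RatFunc L)).toValuationSubring = Loc (0 : L) := by
      have h2 : 0 < (P.restrict (RatFunc L)).ord (unifAt (0 : L)) := by
        have h3 := P.ord_restrict (F := RatFunc L) (unifAt (0 : L))
        rw [hX] at h3
        rw [h3] at hP
        exact pos_of_mul_pos_right hP (Int.natCast_nonneg _)
      rw [← placeAtPt_toValuationSubring]
      congr 1
      refine eq_placeAtPt _ fun g hg => ?_
      obtain ⟨p, q, hq, hpq⟩ := EichlerShimura.mem_Loc.mp hg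
      have hval : ∀ r : L[X], algebraMap L[X] (RatFunc L) r ∈
          (P.restrict (RatFunc L)).toValuationSubring := fun r => by
        induction r using Polynomial.induction_on' with
        | add a b ha hb => rw [map_add]; exact add_mem ha hb
        | monomial n a =>
          rw [← C_mul_X_pow_eq_monomial, map_mul, map_pow, RatFunc.algebraMap_C, RatFunc.algebraMap_X]
          refine mul_mem ((P.restrict (RatFunc L)).algebraMap_mem' a) (pow_mem ?_ _)
          rw [unifAt_eq, map_zero, sub_zero] at h2
          exact (mem_iff_ord _ RatFunc.X_ne_zero).mpr h2.le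
      have hq0 : algebraMap L[X] (RatFunc L) q ≠ 0 :=
        (map_ne_zero_iff _ (RatFunc.algebraMap_injective L)).mpr fun h => hq (by simp [h])
      rw [show g = algebraMap L[X] (RatFunc L) p * (algebraMap L[X] (RatFunc L) q)⁻¹ by
        rw [← hpq, mul_inv_cancel_right₀ hq0]]
      refine mul_mem (hval p) ?_
      by_contra hn
      have h4 : algebraMap L[X] (RatFunc L) q ∈ ordGe (P.restrict (RatFunc L)) 1 :=
        (mem_ordGe_one_iff _).mpr ((ValuationSubring.mem_nonunits_iff_or _).mpr (Or.inr hn))
      have h5 : algebraMap L[X] (RatFunc L) q - algebraMap L (RatFunc L) (q.eval 0) ∈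
          ordGe (P.restrict (RatFunc L)) 1 := by
        obtain ⟨r, hr⟩ : X ∣ q - C (q.eval 0) := by
          rw [X_dvd_iff, coeff_sub, coeff_C_zero, coeff_zero_eq_eval_zero, sub_self]
        have h6 : algebraMap L[X] (RatFunc L) q - algebraMap L (RatFunc L) (q.eval 0) =
            unifAt 0 * algebraMap L[X] (RatFunc L) r := by
          rw [RatFunc.algebraMap_eq_C, ← RatFunc.algebraMap_C, ← map_sub, hr, unifAt, map_zero,
            sub_zero, map_mul]
        rw [h6]
        simpa using mul_mem_ordGe _ (mem_ordGe_of_le _ h2) ((mem_ordGe_zero _).mpr (hval r))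
      have h7 := sub_mem h4 h5
      rw [sub_sub_cancel, algebraMap_mem_ordGe_one_iff] at h7
      exact hq h7
    rw [← ValuationSubring.mem_comap, ← Place.restrict_toValuationSubring, h1]
    exact hf
  obtain ⟨P, hP⟩ := exists_restrict_eq (F' := E) (placeAtPt (0 : L))
  have hsum := fundamental_identity (F' := E) (placeAtPt (0 : L))
  rw [Module.finrank_eq_card_basis B.b, Fintype.card_fin, deg_eq_one (placeAtPt (0 : L))] at hsum
  have hfib : ∀ P' ∈ (placeAtPt (0 : L)).fiber E,
      0 < P'.ord (algebraMap F₀ E x) ∧ (P'.ramificationIndex (RatFunc L) : ℤ) * P'.deg =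
        P'.ord (algebraMap F₀ E x) := by
    intro P' hP'
    have h1 := P'.ord_restrict (F := RatFunc L) (unifAt (0 : L))
    rw [hX, Place.mem_fiber.mp hP', ord_unifAt, mul_one] at h1
    rw [deg_eq_one]
    exact ⟨by rw [h1]; exact_mod_cast P'.ramificationIndex_pos (F := RatFunc L), by simp [h1]⟩
  have hPmem : P ∈ (placeAtPt (0 : L)).fiber E := Place.mem_fiber.mpr hP
  obtain ⟨-, e, he, hPe⟩ := key P (hfib P hPmem).1
  have hsum' : ∑ P' ∈ (placeAtPt (0 : L)).fiber E, P'.ord (algebraMap F₀ E x) = Q.ord x := by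
    rw [hn, ← Finset.sum_congr rfl fun P' hP' => (hfib P' hP').2]
    simpa using hsum
  have hle := Finset.single_le_sum (f := fun P' : Place L E => P'.ord (algebraMap F₀ E x))
    (fun P' hP' => (hfib P' hP').1.le) hPmem
  simp only [hsum', hPe x hx0] at hle
  have he1 : (e : ℤ) = 1 := le_antisymm (by nlinarith) (by exact_mod_cast he)
  refine ⟨P, fun f hf => by rw [hPe f hf, he1, one_mul], fun P' hP' => ?_⟩
  by_contra hne
  obtain ⟨hres, -⟩ := key P' (hP' x hx0 hxQ)
  have hmem' : P' ∈ (placeAtPt (0 : L)).fiber E := Place.mem_fiber.mpr hres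
  have h2 := Finset.sum_le_sum_of_subset_of_nonneg (f := fun P' : Place L E => P'.ord (algebraMap F₀ E x))
    (s := {P', P}) (t := (placeAtPt (0 : L)).fiber E)
    (Finset.insert_subset hmem' (Finset.singleton_subset_iff.mpr hPmem))
    (fun R hR _ => (hfib R hR).1.le)
  rw [Finset.sum_pair hne, hsum', hPe x hx0, he1, one_mul] at h2
  have := (hfib P' hmem').1
  omega

variable (L E) in
/-- The constant point over `Q`. -/
def cst (Q : Place K F₀) : Place L E := (exists_cst (L := L) (E := E) Q).choose

theorem ord_cst (Q : Place K F₀) (f : F₀) :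
    (cst L E Q).ord (algebraMap F₀ E f) = Q.ord f := by
  rcases eq_or_ne f 0 with rfl | hf
  · simp
  · exact (exists_cst (L := L) (E := E) Q).choose_spec.1 f hf

theorem cst_injective : Function.Injective (cst L E : Place K F₀ → Place L E) := fun Q Q' h => by
  refine Place.ext (SetLike.ext fun f => ?_)
  rcases eq_or_ne f 0 with rfl | hf
  · simp [zero_mem]
  rw [mem_iff_ord Q hf, mem_iff_ord Q' hf, ← ord_cst (L := L) (E := E), h, ord_cst]

/-- A point where some function of `F₀` has a zero or pole is constant. -/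
theorem exists_eq_cst (P : Place L E) {f : F₀} (hf : P.ord (algebraMap F₀ E f) ≠ 0) :
    ∃ Q : Place K F₀, P = cst L E Q := by
  have hK : ∀ k : K, algebraMap K F₀ k ∈ P.toValuationSubring.comap (algebraMap F₀ E) := fun k => by
    rw [ValuationSubring.mem_comap, ← IsScalarTower.algebraMap_apply,
      IsScalarTower.algebraMap_apply K L E]
    exact P.algebraMap_mem' _
  have hf0 : f ≠ 0 := fun h => hf (by simp [h])
  have hne : P.toValuationSubring.comap (algebraMap F₀ E) ≠ ⊤ := fun h => by
    have h1 : f⁻¹ ∈ P.toValuationSubring.comap (algebraMap F₀ E) := h ▸ ValuationSubring.mem_top _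
    have h2 : f ∈ P.toValuationSubring.comap (algebraMap F₀ E) := h ▸ ValuationSubring.mem_top _
    rw [ValuationSubring.mem_comap] at h1 h2
    have h3 := ord_nonneg P h1
    have h4 := ord_nonneg P h2
    rw [map_inv₀, Place.ord_inv] at h3
    omega
  refine ⟨placeOfValuationSubring _ hK hne, (exists_cst (L := L) (E := E) _).choose_spec.2 P
    fun g hg hg' => ?_⟩
  rw [ord_pos_iff _ hg] at hg'
  exact (ord_pos_iff P ((_root_.map_ne_zero _).mpr hg)).mpr (mem_nonunits_comap.mp hg')

theorem spec_cst (A : ValuationSubring L) [IsConstPlace K A] (Q : Place K F₀) :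
    spec K F₀ A (cst L E Q) = Q := by
  obtain ⟨x, hx, -, hc⟩ := exists_centred Q
  rw [spec, hc.mem_nonunits]
  have h1 : 0 < (cst L E Q).ord (algebraMap F₀ E x) := by rw [ord_cst]; exact (hc Q).mpr rfl
  have hne : algebraMap F₀ E x ≠ 0 := fun h => by simp [h] at h1
  have hm := (mem_iff_ord (cst L E Q) hne).mpr h1.le
  have h0 : valAtP (cst L E Q) ⟨_, hm⟩ = 0 :=
    valAtP_eq_of_sub_mem _ hm (by simpa using mem_ordGe_of_le _ (show (1 : ℤ) ≤ _ by omega))
  have hB : algebraMap F₀ E x ∈ specVal A (cst L E Q) :=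
    (mem_specVal A _).mpr ⟨hm, h0 ▸ zero_mem _⟩
  rw [mem_nonunits_specVal A _ hB, h0]
  exact ValuationSubring.mem_nonunits_iff_or _ |>.mpr (Or.inl rfl)

theorem linearIndependent_map {ι : Type*} [Fintype ι] {v : ι → F₀} (hv : LinearIndependent K v) :
    LinearIndependent L fun i => algebraMap F₀ E (v i) := by
  obtain ⟨A, -, hA⟩ := exists_isConstPlace_le (K := K) (⊤ : ValuationSubring L)
    fun _ => ValuationSubring.mem_top _
  obtain ⟨G⟩ := exists_gaussRed (K := K) (F₀ := F₀) (E := E) A
  rw [Fintype.linearIndependent_iff]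
  intro g hg
  by_contra! hne
  obtain ⟨m, hm, hmem⟩ := Arith.exists_div_mem A hne
  let y : G.sub := ∑ i, (⟨_, G.mem_const ⟨_, hmem i⟩⟩ : G.sub) * ⟨_, G.mem_fun (v i)⟩
  have hy : y = 0 := Subtype.ext (by
    simp only [y, AddSubmonoidClass.coe_finsetSum, MulMemClass.coe_mul, ZeroMemClass.coe_zero]
    calc ∑ i, algebraMap L E (g i / g m) * algebraMap F₀ E (v i)
        = algebraMap L E (g m)⁻¹ * ∑ i, g i • algebraMap F₀ E (v i) := by
          rw [Finset.mul_sum]
          refine Finset.sum_congr rfl fun i _ => ?_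
          rw [Algebra.smul_def, ← mul_assoc, ← map_mul, div_eq_inv_mul]
      _ = 0 := by rw [hg, mul_zero])
  have h2 := congrArg G.red hy
  rw [map_sum, map_zero] at h2
  have h2' : ∑ i, valueA K A ⟨_, hmem i⟩ • v i = 0 := by
    refine Eq.trans (Finset.sum_congr rfl fun i _ => ?_) h2
    rw [map_mul, G.red_fun, Algebra.smul_def]
    exact congrArg (· * v i) (G.red_const ⟨_, hmem i⟩).symm
  have h3 := Fintype.linearIndependent_iff.mp hv _ h2' m
  have h4 : (⟨_, hmem m⟩ : A) = 1 := Subtype.ext (div_self hm)
  rw [h4, map_one] at h3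
  exact one_ne_zero h3

variable (L E) in
/-- The constant divisor over a divisor of `F₀`. -/
def cstDiv (D : Divisor K F₀) : Divisor L E := Finsupp.mapDomain (cst L E) D

theorem cstDiv_cst (D : Divisor K F₀) (Q : Place K F₀) : cstDiv L E D (cst L E Q) = D Q :=
  Finsupp.mapDomain_apply cst_injective D Q

theorem cstDiv_of_ne (D : Divisor K F₀) (P : Place L E) (h : ∀ Q : Place K F₀, P ≠ cst L E Q) :
    cstDiv L E D P = 0 :=
  Finsupp.mapDomain_of_notMem_range D P fun ⟨Q, hQ⟩ => h Q hQ.symm

theorem degree_cstDiv (D : Divisor K F₀) :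
    Divisor.degree (cstDiv L E D) = Divisor.degree D := by
  induction D using Finsupp.induction_linear with
  | zero => simp [cstDiv]
  | add a b ha hb => rw [cstDiv, Finsupp.mapDomain_add, map_add, map_add, ← cstDiv, ← cstDiv, ha, hb]
  | single Q n => rw [cstDiv, Finsupp.mapDomain_single, Divisor.degree_single,
      Divisor.degree_single, deg_eq_one, deg_eq_one]

theorem ell_le_ell_cstDiv (D : Divisor K F₀) : ell K D ≤ ell L (cstDiv L E D) := by
  let b := Module.finBasis K (riemannRochSpace D)
  have hli : LinearIndependent K fun i => ((b i : riemannRochSpace D) : F₀) :=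
    b.linearIndependent.map' (riemannRochSpace D).subtype (Submodule.ker_subtype _)
  have hmem : ∀ i, algebraMap F₀ E (b i : F₀) ∈ riemannRochSpace (cstDiv L E D) := fun i => by
    rw [mem_riemannRochSpace']
    intro P
    rcases eq_or_ne (b i : F₀) 0 with h | h
    · rw [h, map_zero]; exact zero_mem _
    have hb := mem_riemannRochSpace'.mp (b i).2
    by_cases hc : ∃ Q : Place K F₀, P = cst L E Q
    · obtain ⟨Q, rfl⟩ := hc
      refine mem_ordGe_of_le _ ?_
      rw [cstDiv_cst, ord_cst]
      exact le_ord_of_mem_ordGe Q h (hb Q)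
    · refine mem_ordGe_of_le _ ?_
      rw [cstDiv_of_ne D P (not_exists.mp hc), neg_zero]
      exact le_of_eq (not_not.mp fun h0 => hc (exists_eq_cst P (Ne.symm h0)))
  let v : Fin (Module.finrank K (riemannRochSpace D)) → riemannRochSpace (cstDiv L E D) :=
    fun i => ⟨_, hmem i⟩
  have hv : LinearIndependent L v :=
    LinearIndependent.of_comp (riemannRochSpace (cstDiv L E D)).subtype (linearIndependent_map hli)
  have := hv.fintype_card_le_finrank
  rw [Fintype.card_fin] at this
  unfold ell
  exact_mod_cast this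

variable (K F₀ L E) in
theorem genus_le : (genusFF L E : ℤ) ≤ genusFF K F₀ := by
  obtain ⟨c, hc⟩ := exists_ell_eq (K := K) (F := F₀)
  obtain ⟨c', hc'⟩ := exists_ell_eq (K := L) (F := E)
  obtain ⟨Q⟩ := exists_place (K := K) (F := F₀)
  set D : Divisor K F₀ := Finsupp.single Q (max c c')
  have hd : Divisor.degree D = max c c' := by
    rw [Divisor.degree_single, deg_eq_one]; simp
  have h1 := hc D (hd ▸ le_max_left _ _)
  have h2 := hc' (cstDiv L E D) (by rw [degree_cstDiv, hd]; exact le_max_right _ _)
  have h3 := ell_le_ell_cstDiv (L := L) (E := E) D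
  rw [degree_cstDiv] at h2
  omega


end Fermat.Agent.AV.Const
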