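import Fermat.Agent.AV.Const.Disc

/-!
# Reduction on a residue disc

The order of the reduction at `Q` is the sum of the orders over the disc of `Q`; a primitive
function without poles in the disc is integral at every valuation ring centred at `Q`.
-/

set_option autoImplicit false
set_option linter.unusedSectionVars false

noncomputable section

open scoped Classical
open Polynomial IsLocalRing IntermediateField AlgebraicCurve

namespace Fermat.Agent.AV.Const

open Fermat.Agent.FF Fermat.Agent.RedTorsion Fermat.Agent.EichlerShimura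

variable {K F₀ L E : Type*} [Field K] [Field F₀] [Field L] [Field E] [Algebra K F₀]
  [Algebra K L] [Algebra L E] [Algebra F₀ E] [Algebra K E] [IsScalarTower K L E]
  [IsScalarTower K F₀ E] [IsAlgClosed K] [IsAlgClosed L] [IsFunctionField K F₀]
  [IsConstExt K F₀ L E] [IsFunctionField L E] {A : ValuationSubring L} [IsConstPlace K A]
  (G : GaussRed K F₀ E A)

theorem isAlgClosed_kappa (K : Type*) {L : Type*} [Field K] [Field L] [Algebra K L]
    [IsAlgClosed K] (A : ValuationSubring L) [IsConstPlace K A] : IsAlgClosed (Kappa A) := by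
  refine IsAlgClosed.of_exists_root _ fun p hp hirr => ?_
  obtain ⟨r, hr⟩ := IsAlgClosed.exists_root (p.map (kEquiv K A).symm.toRingHom) (by
    rw [degree_map]; exact (degree_pos_of_irreducible hirr).ne')
  refine ⟨kEquiv K A r, ?_⟩
  rw [IsRoot, eval_map] at hr
  have h := congrArg (kEquiv K A).toRingHom hr
  rw [hom_eval₂, map_zero] at h
  rwa [show (kEquiv K A).toRingHom.comp (kEquiv K A).symm.toRingHom = RingHom.id (Kappa A) from
    RingHom.ext fun z => (kEquiv K A).apply_symm_apply z] at h

/-- The places over the residue field and over `K` are the same. -/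
theorem exists_kappaPlace (A : ValuationSubring L) [IsConstPlace K A] (Q : Place K F₀) :
    letI := algKappa K A F₀
    ∃ Q' : Place (Kappa A) F₀, Q'.toValuationSubring = Q.toValuationSubring ∧
      ∀ f : F₀, Q'.ord f = Q.ord f := by
  let _ := algKappa K A F₀
  let Q' : Place (Kappa A) F₀ :=
    ⟨Q.toValuationSubring, fun c => Q.algebraMap_mem' _, Q.ne_top', Q.isPrincipalIdealRing'⟩
  exact ⟨Q', rfl, fun f => rfl⟩

namespace GaussRed

/-- The order of the reduction is the total order over the disc. -/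
theorem ord_red (Q : Place K F₀) (y : G.sub) (hy : G.red y ≠ 0) (S : Finset (Place L E))
    (hS : ∀ P, spec K F₀ A P = Q → P.ord (y : E) ≠ 0 → P ∈ S) :
    ∑ P ∈ S.filter (fun P => spec K F₀ A P = Q), P.ord (y : E) = Q.ord (G.red y) := by
  obtain ⟨x, hx, hsep, hc⟩ := exists_centred Q
  obtain ⟨B⟩ := exists_lineBasis (L := L) (E := E) hx
  let _ := ratAlgebra (transcendental_map (L := L) (E := E) hx)
  let _ := algRatKappa K A hx
  let _ := algKappa K A F₀
  have := Module.Finite.of_basis B.b
  have := lineE_tower (E := E) (L := L) hx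
  have := algKappa_tower K A hx
  have : Module.Finite (RatFunc (Kappa A)) F₀ := Module.Finite.of_basis (kappaBasis A hx B)
  have : IsFunctionField (Kappa A) F₀ := isFunctionField_extension (Kappa A) (RatFunc (Kappa A)) F₀
  have : IsAlgClosed (Kappa A) := isAlgClosed_kappa K A
  set M := lineModel A hx B
  have hS' : (y : E) ∈ M.S := (G.eq_model hx B _).1.mpr y.2
  have hyS : M.red ⟨_, hS'⟩ ≠ 0 := by rwa [(G.eq_model hx B _).2 hS' y.2]
  obtain ⟨q, hq, hqy⟩ := M.exists_mul_mem_Rint ({0} : Set (Kappa A)) ⟨_, hS'⟩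
  set Y : Rint E ({0} : Set (Kappa A)) := ⟨_, hqy⟩
  set Qf : Rint E ({0} : Set (Kappa A)) :=
    ⟨_, algebraMap_mem_Rint (E := E) (apply_mem_fracPart (ι := ratIncl A) (Q := diskPolys A {0}) q)⟩
  have hQf : M.redT {0} Qf = algebraMap (RatFunc (Kappa A)) F₀ (ratBar A q) := by
    rw [← redG_ratIncl, ← M.red_algebraMap]
    rfl
  have hQf0 : M.redT {0} Qf ≠ 0 := by
    rw [hQf, _root_.map_ne_zero]
    exact ratBar_ne_zero_of_mem hq
  have hY : M.redT {0} Y = M.redT {0} Qf * M.red ⟨_, hS'⟩ := by
    rw [hQf, ← redG_ratIncl, ← M.red_algebraMap_mul]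
    rfl
  have hY0 : M.redT {0} Y ≠ 0 := hY ▸ mul_ne_zero hQf0 hyS
  obtain ⟨Q', hQ', hord⟩ := exists_kappaPlace A Q
  have hfib : (placeAtPt (0 : Kappa A)).fiber F₀ = {Q'} := by
    have key : ∀ R : Place (Kappa A) F₀, R.restrict (RatFunc (Kappa A)) = placeAtPt 0 → R = Q' := by
      intro R hR
      let R₀ : Place K F₀ := ⟨R.toValuationSubring, fun k => by
        have := R.algebraMap_mem' (kEquiv K A k)
        rwa [show algebraMap (Kappa A) F₀ (kEquiv K A k) =
          algebraMap K F₀ ((kEquiv K A).symm (kEquiv K A k)) from rfl,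
          RingEquiv.symm_apply_apply] at this, R.ne_top', R.isPrincipalIdealRing'⟩
      have h1 : 0 < R₀.ord x := by
        show 0 < R.ord x
        have h3 : algebraMap (RatFunc (Kappa A)) F₀ (unifAt (0 : Kappa A)) = x := by
          rw [unifAt_eq, map_zero, sub_zero, algRatKappa_X]
        have h2 := R.ord_restrict (F := RatFunc (Kappa A)) (unifAt (0 : Kappa A))
        rw [h3, hR, ord_unifAt, mul_one] at h2
        rw [h2]
        exact_mod_cast R.ramificationIndex_pos (F := RatFunc (Kappa A))
      have h2 : R₀ = Q := (hc R₀).mp h1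
      refine Place.toValuationSubring_injective ?_
      rw [hQ', ← h2]
    obtain ⟨R, hR⟩ := exists_restrict_eq (F' := F₀) (placeAtPt (0 : Kappa A))
    refine Finset.eq_singleton_iff_unique_mem.mpr ⟨?_, fun R' hR' => key R' (Place.mem_fiber.mp hR')⟩
    rw [Place.mem_fiber, ← key R hR, hR]
  have h1 := M.sum_disc_eq (t := 0) hY0
  have h2 := M.sum_disc_eq (t := 0) hQf0
  rw [hfib, Finset.sum_singleton] at h1 h2
  have hy0 : (y : E) ≠ 0 := fun h => hy (by rw [show y = 0 from Subtype.ext h, map_zero])
  have hq0 : (Qf : E) ≠ 0 := fun h => hQf0 (by rw [show Qf = 0 from Subtype.ext h, map_zero])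
  rw [show (Y : E) = (Qf : E) * (y : E) from rfl, sum_filter_suppFin_mul _ hq0 hy0, h2, hY,
    Place.ord_mul _ hQf0 hyS] at h1
  have h3 := add_left_cancel h1
  rw [hord, (G.eq_model hx B _).2 hS' y.2] at h3
  refine Eq.trans ?_ h3
  symm
  refine Finset.sum_subset_zero_on_sdiff ?_ ?_ fun _ _ => rfl
  · intro P hP
    rw [Finset.mem_filter] at hP ⊢
    have hsp := (overDisc_zero_iff hx hc B P).mp hP.2
    exact ⟨hS P hsp fun h0 => notMem_suppFin.mpr h0 hP.1, hsp⟩
  · intro P hP
    simp only [Finset.mem_sdiff, Finset.mem_filter, not_and] at hP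
    refine notMem_suppFin.mp fun h => hP.2 h ((overDisc_zero_iff hx hc B P).mpr hP.1.2)

/-- A primitive function without poles in the disc. -/
theorem regular (Q : Place K F₀) (y : G.sub)
    (hy : ∀ P : Place L E, spec K F₀ A P = Q → (y : E) ∈ P.toValuationSubring) :
    ∀ (W : ValuationSubring E) [IsConstPlace K W], W.comap (algebraMap L E) = A →
        centre K F₀ W = Q → (y : E) ∈ W := by
  obtain ⟨x, hx, hsep, hc⟩ := exists_centred Q
  obtain ⟨B⟩ := exists_lineBasis (L := L) (E := E) hx
  let _ := ratAlgebra (transcendental_map (L := L) (E := E) hx)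
  let _ := algRatKappa K A hx
  have := Module.Finite.of_basis B.b
  have := lineE_tower (E := E) (L := L) hx
  have : Module.Finite (RatFunc (Kappa A)) F₀ := Module.Finite.of_basis (kappaBasis A hx B)
  set M := lineModel A hx B
  have hS' : (y : E) ∈ M.S := (G.eq_model hx B _).1.mpr y.2
  have hR : (y : E) ∈ Rint E ({0} : Set (Kappa A)) := by
    refine mem_Rint.mpr (isIntegral_of_cpoly fun i => mem_Lam_iff.mpr
      ⟨(M.cpoly_red ⟨_, hS'⟩ i).1, fun c hc' => cpoly_coeff_mem
        (EichlerShimura.ValuationSubring.intClosedIn _) (isIntegral_Loc_of_places fun P hP => ?_) i⟩)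
    exact hy P ((overDisc_zero_iff hx hc B P).mp ⟨c, hc', Place.mem_fiber.mp hP⟩)
  intro W _ hWA hWQ
  have hxW : algebraMap F₀ E x ∈ W.nonunits := hc.mem_nonunits.mp hWQ
  have hAW : ∀ a : A, algebraMap L E a ∈ W := fun a => (SetLike.ext_iff.mp hWA _).mpr a.2
  let evW : A[X] →+* W := eval₂RingHom
    (((algebraMap L E).comp A.subtype).codRestrict W.toSubring hAW)
    ⟨_, ValuationSubring.nonunits_subset hxW⟩
  have hev : ∀ p : A[X], (evW p : E) = algebraMap (RatFunc L) E (ratIncl A p) := fun p => by
    refine RingHom.congr_fun (f := W.subtype.comp evW)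
      (g := (algebraMap (RatFunc L) E).comp (ratIncl A)) ?_ p
    refine Polynomial.ringHom_ext (fun a => ?_) ?_
    · simp only [evW, RingHom.comp_apply, coe_eval₂RingHom, eval₂_C, ratIncl_C,
        ← RatFunc.algebraMap_eq_C, ← IsScalarTower.algebraMap_apply]
      rfl
    · show ((eval₂ _ _ X : W) : E) = ratLine (transcendental_map (L := L) (E := E) hx) _
      rw [eval₂_X, ratIncl, RingHom.comp_apply, polyIncl, coe_mapRingHom, map_X,
        RatFunc.algebraMap_X, ratLine_X]
  have hval : ∀ p : A[X], valueA K W (evW p) = valueA K A (p.eval 0) := fun p => by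
    refine RingHom.congr_fun (f := (valueA K W).comp evW)
      (g := (valueA K A).comp (evalRingHom 0)) ?_ p
    refine Polynomial.ringHom_ext (fun a => ?_) ?_
    · simp only [evW, RingHom.comp_apply, coe_eval₂RingHom, eval₂_C, coe_evalRingHom, eval_C]
      have h1 : (a : L) - algebraMap K L (valueA K A a) ∈ A.nonunits := sub_valueA_mem K A a
      replace h1 := mem_nonunits_comap.mp
        ((SetLike.ext_iff.mp (congrArg ValuationSubring.nonunits hWA) _).mpr h1)
      rw [map_sub, ← IsScalarTower.algebraMap_apply] at h1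
      have h2 : valueA K W (⟨_, hAW a⟩ - constA K W (valueA K A a)) = 0 :=
        (valueA_eq_zero_iff K W _).mpr h1
      rwa [map_sub, valueA_constA, sub_eq_zero] at h2
    · simp only [evW, RingHom.comp_apply, coe_eval₂RingHom, eval₂_X, coe_evalRingHom, eval_X,
        map_zero]
      exact (valueA_eq_zero_iff K W _).mpr hxW
  have hLamW : ∀ f ∈ Lam A ({0} : Set (Kappa A)), algebraMap (RatFunc L) E f ∈ W := by
    intro f hf
    obtain ⟨p, q, hq, hpq⟩ := mem_Lam.mp hf
    have hq0 : valueA K W (evW q) ≠ 0 := by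
      rw [hval]
      intro h
      refine hq.2 0 (Set.mem_singleton _) ?_
      rw [← map_zero (IsLocalRing.residue A), ← residue_eval, ← kEquiv_valueA (K := K), h, map_zero,
        map_zero]
    have hu : IsUnit (evW q) := by
      rw [← IsLocalRing.residue_ne_zero_iff_isUnit]
      intro h
      exact hq0 (by rw [valueA, RingHom.comp_apply, h, map_zero])
    obtain ⟨u, hu⟩ := hu
    have hne : (evW q : E) ≠ 0 := by
      rw [← hu]; exact fun h => u.ne_zero (Subtype.ext h)
    rw [show algebraMap (RatFunc L) E f = (evW p : E) * (evW q : E)⁻¹ by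
      rw [eq_mul_inv_iff_mul_eq₀ hne, hev, hev, ← map_mul, hpq],
      show (evW q : E)⁻¹ = ((↑u⁻¹ : W) : E) from (eq_inv_of_mul_eq_one_right (by
        rw [← hu]; exact congrArg Subtype.val u.mul_inv)).symm]
    exact mul_mem (evW p).2 (↑u⁻¹ : W).2
  obtain ⟨p, hp, hpy⟩ := mem_Rint.mp hR
  refine EichlerShimura.ValuationSubring.intClosedIn W _ ⟨p.map
    (((algebraMap (RatFunc L) E).comp (Lam A ({0} : Set (Kappa A))).subtype).codRestrict
      W.toSubring fun f => hLamW f f.2), hp.map _, ?_⟩
  rw [eval₂_map]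
  exact hpy

/-- A primitive function without zeros or poles in the disc is a unit at its valuation rings. -/
theorem regular_unit (Q : Place K F₀) (y : G.sub) (hy0 : G.red y ≠ 0)
    (hy : ∀ P : Place L E, spec K F₀ A P = Q → P.ord (y : E) = 0) :
    ∀ (W : ValuationSubring E) [IsConstPlace K W], W.comap (algebraMap L E) = A →
      centre K F₀ W = Q → W.valuation (y : E) = 1 := by
  intro W _ hWA hWQ
  have hyne : (y : E) ≠ 0 := fun h => hy0 (by rw [show y = 0 from Subtype.ext h, map_zero])
  have h1 := G.regular Q y (fun P hP => (mem_iff_ord P hyne).mpr (hy P hP).ge) W hWA hWQ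
  have h2 := G.regular Q ⟨_, G.inv_mem y hy0⟩ (fun P hP =>
    (mem_iff_ord P (inv_ne_zero hyne)).mpr (by rw [Place.ord_inv, hy P hP]; simp)) W hWA hWQ
  refine le_antisymm (W.valuation_le_one ⟨_, h1⟩) ?_
  have h5 := W.valuation_le_one ⟨_, h2⟩
  rwa [map_inv₀, inv_le_one₀ (pos_iff_ne_zero.mpr ((Valuation.ne_zero_iff _).mpr hyne))] at h5

end GaussRed

end Fermat.Agent.AV.Const
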